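import Mathlib

/-!
# Program MW (S17), strand H, block F: the function `theta` and the positivity bookkeeping

Abstract layer (Mathlib only, no curve object).  `X` is the set of points, `H : X → ℝ` the
normalised height of a point and `D : X → X → ℝ` the (symmetric) diagonal height of two
DISTINCT points.  For multiplicity-free divisors `A B : Finset X`:

* `HS H A = ∑ a ∈ A, H a`;
* `offDiag D A` = the sum of `D a b` over the ordered pairs `a ≠ b` of `A`;
* `theta g H D A = (#A + g - 1) * HS H A - offDiag D A / 2`;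
* `PP H D A B = #B * HS H A + #A * HS H B - ∑ a ∈ A, ∑ b ∈ B, D a b`.

`theta_union` : `theta (A ∪ B) = theta A + theta B + PP A B` for disjoint `A`, `B` (exact).

The four arithmetic steps of block F, each from the literal shape of the global statements
of block D as hypotheses:

* `residual_le_theta` (F1): Chow for the determinant section + global Vandermonde for its
  coefficient vector give `H(E') ≤ theta A + C`;
* `abs_PP_le` (F2): Chow + global (LD) give `|PP (Z u₁) (Z u₂)| ≤ C`;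
* `theta_fibre_le` (F3): the fibre bound gives `theta (fibre) ≤ C`;
* `theta_biUnion_le` and `le_q_of_fibres` (F4): `q ≥ -PP A Aᶜ - C`, `A ∪ Aᶜ` a union of
  fibres, give `q ≥ H(E₁) + H(E₂) - C'`.
-/

set_option autoImplicit false
set_option linter.unusedSectionVars false

namespace Fermat.Agent.S17.H.F

open Finset

variable {X : Type*} [DecidableEq X]

/-- Total height of a multiplicity-free divisor. -/
noncomputable def HS (H : X → ℝ) (A : Finset X) : ℝ := ∑ a ∈ A, H a

/-- Sum of `D a b` over the ordered pairs of distinct points of `A`. -/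
noncomputable def offDiag (D : X → X → ℝ) (A : Finset X) : ℝ :=
  ∑ a ∈ A, ∑ b ∈ A, if a = b then 0 else D a b

/-- `theta A = (#A + g - 1) * H(A) - ∑_{unordered pairs} D`. -/
noncomputable def theta (g : ℕ) (H : X → ℝ) (D : X → X → ℝ) (A : Finset X) : ℝ :=
  ((A.card : ℝ) + g - 1) * HS H A - offDiag D A / 2

/-- `P(A, B) = #B * H(A) + #A * H(B) - ∑_{a, b} D a b`. -/
noncomputable def PP (H : X → ℝ) (D : X → X → ℝ) (A B : Finset X) : ℝ :=
  (B.card : ℝ) * HS H A + (A.card : ℝ) * HS H B - ∑ a ∈ A, ∑ b ∈ B, D a b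

theorem HS_union (H : X → ℝ) {A B : Finset X} (hAB : Disjoint A B) :
    HS H (A ∪ B) = HS H A + HS H B := by
  unfold HS
  exact Finset.sum_union hAB

theorem offDiag_union (D : X → X → ℝ) (hD : ∀ a b, D a b = D b a) {A B : Finset X}
    (hAB : Disjoint A B) :
    offDiag D (A ∪ B) = offDiag D A + offDiag D B + 2 * ∑ a ∈ A, ∑ b ∈ B, D a b := by
  unfold offDiag
  rw [Finset.sum_union hAB]
  have h1 : ∀ a ∈ A, (∑ b ∈ A ∪ B, if a = b then 0 else D a b) =
      (∑ b ∈ A, if a = b then 0 else D a b) + ∑ b ∈ B, D a b := by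
    intro a ha
    rw [Finset.sum_union hAB]
    congr 1
    refine Finset.sum_congr rfl fun b hb => ?_
    have hne : a ≠ b := by
      intro h
      rw [h] at ha
      exact Finset.disjoint_left.mp hAB ha hb
    rw [if_neg hne]
  have h2 : ∀ b ∈ B, (∑ a ∈ A ∪ B, if b = a then 0 else D b a) =
      (∑ a ∈ A, D a b) + ∑ a ∈ B, if b = a then 0 else D b a := by
    intro b hb
    rw [Finset.sum_union hAB]
    congr 1
    refine Finset.sum_congr rfl fun a ha => ?_
    have hne : b ≠ a := by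
      intro h
      rw [h] at hb
      exact Finset.disjoint_left.mp hAB ha hb
    rw [if_neg hne, hD]
  have hswap : (∑ b ∈ B, ∑ a ∈ A, D a b) = ∑ a ∈ A, ∑ b ∈ B, D a b := Finset.sum_comm
  rw [Finset.sum_congr rfl h1, Finset.sum_congr rfl h2, Finset.sum_add_distrib,
    Finset.sum_add_distrib, hswap]
  ring

/-- `theta (A ∪ B) = theta A + theta B + P(A, B)` for disjoint `A`, `B`. -/
theorem theta_union (g : ℕ) (H : X → ℝ) (D : X → X → ℝ) (hD : ∀ a b, D a b = D b a)
    {A B : Finset X} (hAB : Disjoint A B) :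
    theta g H D (A ∪ B) = theta g H D A + theta g H D B + PP H D A B := by
  unfold theta PP
  rw [offDiag_union D hD hAB, Finset.card_union_of_disjoint hAB, HS_union H hAB]
  push_cast
  ring

theorem PP_union_right (H : X → ℝ) (D : X → X → ℝ) (A : Finset X) {B B' : Finset X}
    (hBB' : Disjoint B B') : PP H D A (B ∪ B') = PP H D A B + PP H D A B' := by
  unfold PP
  rw [Finset.card_union_of_disjoint hBB', HS_union H hBB']
  have h1 : ∀ a ∈ A, (∑ b ∈ B ∪ B', D a b) = (∑ b ∈ B, D a b) + ∑ b ∈ B', D a b :=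
    fun a _ => Finset.sum_union hBB'
  rw [Finset.sum_congr rfl h1, Finset.sum_add_distrib]
  push_cast
  ring

theorem theta_empty (g : ℕ) (H : X → ℝ) (D : X → X → ℝ) : theta g H D ∅ = 0 := by
  unfold theta HS offDiag
  simp

theorem PP_empty_right (H : X → ℝ) (D : X → X → ℝ) (A : Finset X) : PP H D A ∅ = 0 := by
  unfold PP HS
  simp

/-- **F1, arithmetic.**  `A` multiplicity-free of degree `n`, `M = n + g`; `hc` the height of
the coefficient vector of the determinant section `w_A`, whose zero divisor is `A + E'`, `HE`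
the total height of `E'`.  Chow (`hchow`), the global Vandermonde bound (`hvdm`) and the
comparison `h_ψ ≤ M * H + C₃` (`hcmp`) give `H(E') ≤ theta A + C`. -/
theorem residual_le_theta {g n M : ℕ} (hM : M = n + g) {H : X → ℝ} {D : X → X → ℝ}
    {A : Finset X} (hA : A.card = n) (hψ : X → ℝ) (hc HE C₁ C₂ C₃ : ℝ)
    (hchow : HS H A + HE ≤ hc + C₁)
    (hvdm : hc ≤ ∑ a ∈ A, hψ a - offDiag D A / 2 + C₂)
    (hcmp : ∀ a ∈ A, hψ a ≤ (M : ℝ) * H a + C₃) :
    HE ≤ theta g H D A + (C₁ + C₂ + n * C₃) := by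
  have h1 : ∑ a ∈ A, hψ a ≤ ∑ a ∈ A, ((M : ℝ) * H a + C₃) := Finset.sum_le_sum hcmp
  have h2 : ∑ a ∈ A, ((M : ℝ) * H a + C₃) = (M : ℝ) * HS H A + n * C₃ := by
    unfold HS
    rw [Finset.sum_add_distrib, ← Finset.mul_sum, Finset.sum_const, hA, nsmul_eq_mul]
  have h3 : (M : ℝ) = (n : ℝ) + g := by
    rw [hM]
    push_cast
    ring
  unfold theta
  rw [hA]
  rw [h2, h3] at h1
  nlinarith [h1, hchow, hvdm]

/-- **F2, arithmetic.**  `A = Z(u₁)` and `B = Z(u₂)` multiplicity-free and disjoint, `hc` the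
height of the coefficient vector of `u₁`.  Chow for `u₁` and the global (LD) for `u₁` at the
points of `B` give `|P(A, B)| ≤ #B * (C₁ + C₂)`. -/
theorem abs_PP_le {H : X → ℝ} {D : X → X → ℝ} {A B : Finset X} (hc C₁ C₂ : ℝ)
    (hchow : |HS H A - hc| ≤ C₁)
    (hld : ∀ b ∈ B, |∑ a ∈ A, D a b - hc - (A.card : ℝ) * H b| ≤ C₂) :
    |PP H D A B| ≤ B.card * (C₁ + C₂) := by
  have hswap : (∑ a ∈ A, ∑ b ∈ B, D a b) = ∑ b ∈ B, ∑ a ∈ A, D a b := Finset.sum_comm
  have hPP : PP H D A B =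
      ∑ b ∈ B, ((HS H A - hc) - (∑ a ∈ A, D a b - hc - (A.card : ℝ) * H b)) := by
    unfold PP
    rw [hswap]
    have e1 : ∀ b ∈ B, ((HS H A - hc) - (∑ a ∈ A, D a b - hc - (A.card : ℝ) * H b)) =
        HS H A + (A.card : ℝ) * H b - ∑ a ∈ A, D a b := fun b _ => by ring
    rw [Finset.sum_congr rfl e1, Finset.sum_sub_distrib, Finset.sum_add_distrib,
      Finset.sum_const, nsmul_eq_mul, ← Finset.mul_sum]
    rfl
  rw [hPP]
  refine le_trans (Finset.abs_sum_le_sum_abs _ _) ?_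
  have h1 : ∀ b ∈ B, |(HS H A - hc) - (∑ a ∈ A, D a b - hc - (A.card : ℝ) * H b)| ≤ C₁ + C₂ := by
    intro b hb
    have h2 := hld b hb
    have h3 := abs_sub (HS H A - hc) (∑ a ∈ A, D a b - hc - (A.card : ℝ) * H b)
    linarith
  refine le_trans (Finset.sum_le_sum h1) ?_
  rw [Finset.sum_const, nsmul_eq_mul]

/-- **F3, arithmetic.**  `A` a fibre of `x` over a non-branch value `α` (`n₀` distinct points),
`hα` the height of `α`.  The fibre bound (D4) `hfib` and `n₀ * H a ≤ hα + C₁` on the fibre give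
`theta A ≤ (n₀ + g - 1) * C₁ + C₂ / 2`. -/
theorem theta_fibre_le {g n₀ : ℕ} (hn₀ : 0 < n₀) {H : X → ℝ} {D : X → X → ℝ} {A : Finset X}
    (hA : A.card = n₀) (hα C₁ C₂ : ℝ)
    (hH : ∀ a ∈ A, (n₀ : ℝ) * H a ≤ hα + C₁)
    (hfib : (2 * (n₀ : ℝ) + 2 * g - 2) * hα - C₂ ≤ offDiag D A) :
    theta g H D A ≤ ((n₀ : ℝ) + g - 1) * C₁ + C₂ / 2 := by
  have hn₀' : (0 : ℝ) < n₀ := by exact_mod_cast hn₀
  have h1 : (n₀ : ℝ) * HS H A ≤ (n₀ : ℝ) * (hα + C₁) := by
    unfold HS
    rw [Finset.mul_sum]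
    refine le_trans (Finset.sum_le_sum hH) ?_
    rw [Finset.sum_const, hA, nsmul_eq_mul]
  have h2 : HS H A ≤ hα + C₁ := le_of_mul_le_mul_left h1 hn₀'
  have h3 : (0 : ℝ) ≤ (n₀ : ℝ) + g - 1 := by
    have h4 : (1 : ℝ) ≤ n₀ := by exact_mod_cast hn₀
    have h5 : (0 : ℝ) ≤ g := Nat.cast_nonneg g
    linarith
  have h6 : ((n₀ : ℝ) + g - 1) * HS H A ≤ ((n₀ : ℝ) + g - 1) * (hα + C₁) :=
    mul_le_mul_of_nonneg_left h2 h3
  unfold theta
  rw [hA]
  nlinarith [h6, hfib]

/-- `theta` of a union of pairwise disjoint pieces, each with `theta ≤ C₃` and pairwise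
`P ≤ C₂`. -/
theorem theta_biUnion_le (g : ℕ) (H : X → ℝ) (D : X → X → ℝ) (hD : ∀ a b, D a b = D b a)
    {ι : Type*} [DecidableEq ι] (Fib : ι → Finset X) (C₂ C₃ : ℝ) :
    ∀ s : Finset ι, (∀ i ∈ s, ∀ j ∈ s, i ≠ j → Disjoint (Fib i) (Fib j)) →
      (∀ i ∈ s, theta g H D (Fib i) ≤ C₃) →
      (∀ i ∈ s, ∀ j ∈ s, i ≠ j → PP H D (Fib i) (Fib j) ≤ C₂) →
      theta g H D (s.biUnion Fib) ≤ s.card * C₃ + s.card * s.card * |C₂| := by
  intro s
  induction s using Finset.induction_on with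
  | empty =>
    intro _ _ _
    rw [Finset.biUnion_empty, theta_empty]
    simp
  | insert i s hi ih =>
    intro hdisj hth hPP
    have hdisj' : ∀ j ∈ s, ∀ j' ∈ s, j ≠ j' → Disjoint (Fib j) (Fib j') :=
      fun j hj j' hj' hne =>
        hdisj j (Finset.mem_insert_of_mem hj) j' (Finset.mem_insert_of_mem hj') hne
    have hth' : ∀ j ∈ s, theta g H D (Fib j) ≤ C₃ :=
      fun j hj => hth j (Finset.mem_insert_of_mem hj)
    have hPP' : ∀ j ∈ s, ∀ j' ∈ s, j ≠ j' → PP H D (Fib j) (Fib j') ≤ C₂ :=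
      fun j hj j' hj' hne =>
        hPP j (Finset.mem_insert_of_mem hj) j' (Finset.mem_insert_of_mem hj') hne
    have ih' := ih hdisj' hth' hPP'
    have hne : ∀ j ∈ s, i ≠ j := fun j hj h => hi (h ▸ hj)
    have hdi : Disjoint (Fib i) (s.biUnion Fib) := by
      rw [Finset.disjoint_biUnion_right]
      intro j hj
      exact hdisj i (Finset.mem_insert_self i s) j (Finset.mem_insert_of_mem hj) (hne j hj)
    -- `P(Fib i, ⋃ Fib j) ≤ #s * |C₂|`
    have hPsum : ∀ t : Finset ι, t ⊆ s →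
        (∀ j ∈ t, ∀ j' ∈ t, j ≠ j' → Disjoint (Fib j) (Fib j')) →
        PP H D (Fib i) (t.biUnion Fib) ≤ t.card * |C₂| := by
      intro t
      induction t using Finset.induction_on with
      | empty =>
        intro _ _
        rw [Finset.biUnion_empty, PP_empty_right]
        simp
      | insert j t hj iht =>
        intro hts hdt
        have hjs : j ∈ s := hts (Finset.mem_insert_self j t)
        have hts' : t ⊆ s := fun x hx => hts (Finset.mem_insert_of_mem hx)
        have hdt' : ∀ a ∈ t, ∀ a' ∈ t, a ≠ a' → Disjoint (Fib a) (Fib a') :=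
          fun a ha a' ha' hne' =>
            hdt a (Finset.mem_insert_of_mem ha) a' (Finset.mem_insert_of_mem ha') hne'
        have hdj : Disjoint (Fib j) (t.biUnion Fib) := by
          rw [Finset.disjoint_biUnion_right]
          intro a ha
          exact hdt j (Finset.mem_insert_self j t) a (Finset.mem_insert_of_mem ha)
            (fun h => hj (h ▸ ha))
        rw [Finset.biUnion_insert, PP_union_right H D (Fib i) hdj,
          Finset.card_insert_of_notMem hj]
        have h1 := hPP i (Finset.mem_insert_self i s) j (Finset.mem_insert_of_mem hjs)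
          (hne j hjs)
        have h2 := iht hts' hdt'
        have h3 : C₂ ≤ |C₂| := le_abs_self C₂
        push_cast
        linarith
    have hP := hPsum s (Finset.Subset.refl s) hdisj'
    rw [Finset.biUnion_insert, theta_union g H D hD hdi, Finset.card_insert_of_notMem hi]
    have h1 := hth i (Finset.mem_insert_self i s)
    have h4 : (0 : ℝ) ≤ |C₂| := abs_nonneg C₂
    have h5 : (0 : ℝ) ≤ (s.card : ℝ) := Nat.cast_nonneg _
    push_cast
    nlinarith [h1, ih', hP, h4, h5, mul_nonneg h5 h4]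

/-- **F4, arithmetic.**  `A` and `Aᶜ` disjoint with `A ∪ Aᶜ` a union of pairwise disjoint
fibres; `q ≥ -P(A, Aᶜ) - C₄` (block E), `H(E₁) ≤ theta A + C₁`, `H(E₂) ≤ theta Aᶜ + C₁` (F1),
`theta (fibre) ≤ C₃` (F3), `P(fibre, fibre') ≤ C₂` (F2).  Then
`q ≥ H(E₁) + H(E₂) - const`. -/
theorem le_q_of_fibres (g : ℕ) (H : X → ℝ) (D : X → X → ℝ) (hD : ∀ a b, D a b = D b a)
    {ι : Type*} [DecidableEq ι] (s : Finset ι) (Fib : ι → Finset X)
    (hdisj : ∀ i ∈ s, ∀ j ∈ s, i ≠ j → Disjoint (Fib i) (Fib j))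
    {A Ac : Finset X} (hAAc : Disjoint A Ac) (hU : A ∪ Ac = s.biUnion Fib)
    (q HE₁ HE₂ C₁ C₂ C₃ C₄ : ℝ)
    (hq : -PP H D A Ac - C₄ ≤ q)
    (h1 : HE₁ ≤ theta g H D A + C₁) (h2 : HE₂ ≤ theta g H D Ac + C₁)
    (hfib : ∀ i ∈ s, theta g H D (Fib i) ≤ C₃)
    (hPP : ∀ i ∈ s, ∀ j ∈ s, i ≠ j → PP H D (Fib i) (Fib j) ≤ C₂) :
    HE₁ + HE₂ - (2 * C₁ + s.card * C₃ + s.card * s.card * |C₂| + C₄) ≤ q := by
  have h3 := theta_union g H D hD hAAc
  have h4 := theta_biUnion_le g H D hD Fib C₂ C₃ s hdisj hfib hPP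
  rw [hU] at h3
  linarith

end Fermat.Agent.S17.H.F
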