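import Mathlib
import Fermat.Agent.S17.R.LSpace
import Fermat.Agent.S17.H.F.Theta

/-!
# Program MW (S17), strand H, block F: the interface of leaf F4 (literal shapes of F1, F2, F3)

Level-free and height-free: `F / K` a function field of one variable, `v₀` the base place,
`H : Place K F → ℝ` the normalised height of a point and `Dd : Place K F → Place K F → ℝ` the
diagonal height of two distinct points (both abstract here), `g = gR K F`.

* `HDiv H E` : the total height of a divisor `E`, with multiplicities.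
* `ResidualBound v₀ H Dd` (the output of leaf F1): for `n` large, `A` a set of `n` distinct
  points `≠ v₀` with `l((n + g) v₀ - A) = 1` and `E ≥ 0` the residual divisor of the section
  `w` of `(n + g) v₀ - A` (`div w = A + E - (n + g) v₀`): `H(E) ≤ theta A + C`.
* `FibreBound t H Dd` (leaf F3): `theta (fibre) ≤ C` for every unramified fibre of `t`.
* `FibrePairBound t H Dd` (leaf F2): `|PP (fibre) (fibre')| ≤ C` for two distinct unramified
  fibres of `t`.

Leaf F4 (`FineBound.lean`) consumes exactly these three.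
-/

set_option autoImplicit false

namespace Fermat.Agent.S17.H.F

open AlgebraicCurve Module
open Fermat.Agent.S17.R

variable {K F : Type*} [Field K] [Field F] [Algebra K F]

/-- The total height of a divisor, with multiplicities. -/
noncomputable def HDiv (H : Place K F → ℝ) (E : Divisor K F) : ℝ :=
  E.sum fun P n => (n : ℝ) * H P

open Classical in
/-- **Output of F1** (residual bound).  For `n ≥ n₁`: `A` a set of `n` places `≠ v₀` with
`l((n + g) v₀ - A) = 1`, `E ≥ 0` off `v₀` and `w ≠ 0` with `div w = A + E - (n + g) v₀`;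
then `H(E) ≤ theta A + C`. -/
def ResidualBound (v₀ : Place K F) (H : Place K F → ℝ) (Dd : Place K F → Place K F → ℝ) :
    Prop :=
  ∃ n₁ : ℕ, ∀ n : ℕ, n₁ ≤ n → ∃ C : ℝ, ∀ (A : Finset (Place K F)) (E : Divisor K F) (w : F),
    A.card = n → v₀ ∉ A → 0 ≤ E → E v₀ = 0 → w ≠ 0 →
    (∀ v : Place K F, v.ord w =
      (∑ a ∈ A, Finsupp.single a (1 : ℤ) + E
        - ((n + gR K F : ℕ) : ℤ) • Finsupp.single v₀ (1 : ℤ) : Divisor K F) v) →
    finrank K ↥(riemannRochSpace
      (((n + gR K F : ℕ) : ℤ) • Finsupp.single v₀ (1 : ℤ)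
        - ∑ a ∈ A, Finsupp.single a (1 : ℤ) : Divisor K F)) = 1 →
    HDiv H E ≤ theta (gR K F) H Dd A + C

open Classical in
/-- **Output of F3** (fibre bound): `theta` of an unramified fibre of `t` is bounded above. -/
def FibreBound (t : F) (H : Place K F → ℝ) (Dd : Place K F → Place K F → ℝ) : Prop :=
  ∃ C : ℝ, ∀ (c : K) (Fib : Finset (Place K F)),
    (∀ u : Place K F, u ∈ Fib ↔ 0 < u.ord (t - algebraMap K F c)) →
    (∀ u ∈ Fib, u.ord (t - algebraMap K F c) = 1) →
    theta (gR K F) H Dd Fib ≤ C

open Classical in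
/-- **Output of F2** (two fibres): `PP` of two distinct unramified fibres of `t` is bounded. -/
def FibrePairBound (t : F) (H : Place K F → ℝ) (Dd : Place K F → Place K F → ℝ) : Prop :=
  ∃ C : ℝ, ∀ (c c' : K) (Fib Fib' : Finset (Place K F)), c ≠ c' →
    (∀ u : Place K F, u ∈ Fib ↔ 0 < u.ord (t - algebraMap K F c)) →
    (∀ u : Place K F, u ∈ Fib' ↔ 0 < u.ord (t - algebraMap K F c')) →
    (∀ u ∈ Fib, u.ord (t - algebraMap K F c) = 1) →
    (∀ u ∈ Fib', u.ord (t - algebraMap K F c') = 1) →
    |PP H Dd Fib Fib'| ≤ C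

end Fermat.Agent.S17.H.F
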