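import Mathlib
import Fermat.Agent.S17.R.Reduced
import Fermat.Agent.S17.R.Places
import Fermat.Agent.S17.R.GenericMember
import Fermat.Agent.S17.H.Glob.Eval
import Fermat.Agent.S17.H.Pairing.Core
import Fermat.Agent.S17.H.Pairing.LamOff
import Fermat.Agent.S17.H.E.MovingEff
import Fermat.Agent.S17.H.F.Theta
import Fermat.Agent.S17.H.F.FineIface

/-!
# Program MW (S17), strand H, block F, leaf F4: the bound on fine classes

`F / K` a function field of one variable over an algebraically closed field of characteristic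
zero, `v₀` the base place, `t` a function regular off `v₀` with a pole of order `≥ 2` at `v₀`,
`H`, `Dd` the (abstract) point height and diagonal height, `q = Pairing.quad` the class
function of block E.  From the three outputs of F1, F2, F3 (`FineIface.lean`):

`fine_bound` : there is `C` with `H(E_x) + H(E_{-x}) ≤ q x + C` for every class `x` with
`redDeg v₀ x = g = redDeg v₀ (-x)`, where `E_y = redDiv v₀ y` is the reduced divisor.

Proof.  `A` := a generic member of `|x + n v₀|` (leaf R15d): `n` distinct points off `v₀` with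
distinct `t`-values and unramified `t`-fibres; `Aᶜ` := the other points of these fibres.  Then
`[A - n v₀] = x`, `[Aᶜ - deg v₀] = -x`, so `q x ≥ -PP A Aᶜ - C` (`Pairing.quad_spec_neg`), the
residual divisors of `A` and `Aᶜ` are `E_{-x}` and `E_x` (uniqueness of the reduced divisor),
and `le_q_of_fibres` (F0) concludes.
-/

set_option autoImplicit false
set_option linter.unusedSectionVars false

namespace Fermat.Agent.S17.H.F

open AlgebraicCurve Module
open Fermat.Agent.S17.R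

section General

variable {K F : Type*} [Field K] [Field F] [Algebra K F]

theorem sum_single_apply_of_mem {S : Finset (Place K F)} {v : Place K F} (h : v ∈ S) :
    (∑ u ∈ S, Finsupp.single u (1 : ℤ) : Divisor K F) v = 1 := by
  classical
  rw [Finsupp.finsetSum_apply]
  simp [Finsupp.single_apply, h]

theorem sum_single_apply_of_notMem {S : Finset (Place K F)} {v : Place K F} (h : v ∉ S) :
    (∑ u ∈ S, Finsupp.single u (1 : ℤ) : Divisor K F) v = 0 := by
  classical
  rw [Finsupp.finsetSum_apply]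
  simp [Finsupp.single_apply, h]

/-- The set of zeros of a function. -/
noncomputable def zeroSet (K : Type*) {F : Type*} [Field K] [Field F] [Algebra K F] (f : F) :
    Finset (Place K F) :=
  (divOf K f).support.filter fun u => 0 < divOf K f u

/-- At a pole of `t`, `t - c` has the order of `t`. -/
theorem ord_sub_const_of_neg (v : Place K F) {t : F} (h : v.ord t < 0) (c : K) :
    v.ord (t - algebraMap K F c) = v.ord t := by
  by_cases hc : c = 0
  · rw [hc, map_zero, sub_zero]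
  · have ht0 : t ≠ 0 := by
      rintro rfl
      simp at h
    have hc0 : -algebraMap K F c ≠ 0 := neg_ne_zero.mpr ((map_ne_zero (algebraMap K F)).mpr hc)
    rw [sub_eq_add_neg]
    refine Fermat.Agent.S24.FF.ord_add_eq_of_lt v ?_ ht0 hc0
    rw [Fermat.Agent.S24.FF.ord_neg, Fermat.Agent.S24.FF.ord_algebraMap]
    exact h

/-- Where `t` is regular, so is `t - c`. -/
theorem ord_sub_const_nonneg (v : Place K F) {t : F} (h : 0 ≤ v.ord t) (c : K) :
    0 ≤ v.ord (t - algebraMap K F c) := by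
  by_cases h0 : t - algebraMap K F c = 0
  · rw [h0]
    simp
  · have h1 := Fermat.Agent.S24.FF.ord_sub_ge v (f := t) (g := algebraMap K F c) h0
    rw [Fermat.Agent.S24.FF.ord_algebraMap] at h1
    exact (le_min h le_rfl).trans h1

end General

variable {K F : Type*} [Field K] [Field F] [Algebra K F]
variable [IsAlgClosed K] [CharZero K] [Algebra.EssFiniteType K F]

theorem mem_zeroSet (htr : Algebra.trdeg K F = 1) (f : F) (u : Place K F) :
    u ∈ zeroSet K f ↔ 0 < u.ord f := by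
  unfold zeroSet
  rw [Finset.mem_filter, Finsupp.mem_support_iff, divOf_apply htr]
  exact ⟨fun h => h.2, fun h => ⟨ne_of_gt h, h⟩⟩

/-- The divisor of `t - c` for an unramified fibre of a function `t` regular off `v₀`. -/
theorem divOf_sub_const (htr : Algebra.trdeg K F = 1) {v₀ : Place K F} {t : F}
    (hreg : ∀ v : Place K F, v ≠ v₀ → 0 ≤ v.ord t) (hpole : v₀.ord t < 0) (c : K)
    (hsimple : ∀ u : Place K F, 0 < u.ord (t - algebraMap K F c) →
      u.ord (t - algebraMap K F c) = 1) :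
    divOf K (t - algebraMap K F c) =
      ∑ u ∈ zeroSet K (t - algebraMap K F c), Finsupp.single u (1 : ℤ)
        - Finsupp.single v₀ (-(v₀.ord t)) := by
  ext v
  rw [divOf_apply htr, Finsupp.sub_apply]
  by_cases hv : v = v₀
  · rw [hv]
    have h1 := ord_sub_const_of_neg v₀ hpole c
    have hnot : v₀ ∉ zeroSet K (t - algebraMap K F c) := by
      rw [mem_zeroSet htr]
      omega
    rw [sum_single_apply_of_notMem hnot, Finsupp.single_eq_same, h1]
    ring
  · rw [Finsupp.single_eq_of_ne hv, sub_zero]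
    by_cases hz : v ∈ zeroSet K (t - algebraMap K F c)
    · rw [sum_single_apply_of_mem hz]
      exact hsimple v ((mem_zeroSet htr _ _).mp hz)
    · rw [sum_single_apply_of_notMem hz]
      have h0 : ¬ 0 < v.ord (t - algebraMap K F c) := fun h => hz ((mem_zeroSet htr _ _).mpr h)
      have h1 := ord_sub_const_nonneg v (hreg v hv) c
      omega

/-- An unramified fibre of `t` has as many points as the pole order of `t`. -/
theorem card_zeroSet_sub_const (htr : Algebra.trdeg K F = 1) {v₀ : Place K F} {t : F}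
    (hreg : ∀ v : Place K F, v ≠ v₀ → 0 ≤ v.ord t) (hpole : v₀.ord t < 0) (c : K)
    (hsimple : ∀ u : Place K F, 0 < u.ord (t - algebraMap K F c) →
      u.ord (t - algebraMap K F c) = 1) :
    ((zeroSet K (t - algebraMap K F c)).card : ℤ) = -(v₀.ord t) := by
  have h := degree_divOf htr (t - algebraMap K F c)
  rw [divOf_sub_const htr hreg hpole c hsimple, map_sub, map_sum] at h
  simp only [Divisor.degree_single, Fermat.Agent.S24.FF.deg_eq_one htr] at h
  simp at h
  linarith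

theorem sum_single_sub_mem_degZero (htr : Algebra.trdeg K F = 1) (v₀ : Place K F)
    (B : Finset (Place K F)) :
    (∑ b ∈ B, Finsupp.single b (1 : ℤ) - (B.card : ℤ) • Finsupp.single v₀ (1 : ℤ) :
      Divisor K F) ∈ Divisor.degZero (K := K) (F := F) := by
  rw [Divisor.mem_degZero, map_sub, map_sum, map_zsmul]
  simp [Divisor.degree_single, Fermat.Agent.S24.FF.deg_eq_one htr]

/-- The class of a finite set of places: the class of `∑ B - #B · v₀`. -/
theorem cls_val (htr : Algebra.trdeg K F = 1) (v₀ : Place K F) (B : Finset (Place K F)) :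
    Pairing.cls (MovingEff.ptClass htr v₀) B.val =
      Pic0.mk ⟨∑ b ∈ B, Finsupp.single b (1 : ℤ) - (B.card : ℤ) • Finsupp.single v₀ (1 : ℤ),
        sum_single_sub_mem_degZero htr v₀ B⟩ := by
  have e1 : Pairing.cls (MovingEff.ptClass htr v₀) B.val =
      ∑ b ∈ B, MovingEff.ptClass htr v₀ b := rfl
  rw [e1]
  have e2 : (∑ b ∈ B, (⟨Finsupp.single b 1 - Finsupp.single v₀ 1,
      MovingEff.single_sub_single_mem_degZero htr v₀ b⟩ : Divisor.degZero (K := K) (F := F)))
      = ⟨∑ b ∈ B, Finsupp.single b (1 : ℤ) - (B.card : ℤ) • Finsupp.single v₀ (1 : ℤ),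
        sum_single_sub_mem_degZero htr v₀ B⟩ := by
    apply Subtype.ext
    rw [AddSubmonoidClass.coe_finsetSum]
    simp only
    rw [Finset.sum_sub_distrib, Finset.sum_const, natCast_zsmul]
  rw [← e2]
  unfold MovingEff.ptClass Pic0.mk
  rw [QuotientAddGroup.mk_sum]

/-- If the class of the set `B` is `-y` and `E - d v₀` represents `y`, then `B + E - (#B + d) v₀`
is the divisor of a function. -/
theorem exists_ord_eq_of_cls (htr : Algebra.trdeg K F = 1) (v₀ : Place K F)
    (B : Finset (Place K F)) {y : Pic0 K F} {d : ℕ} {E : Divisor K F}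
    (hE : IsEffRep v₀ y d E) (hB : Pairing.cls (MovingEff.ptClass htr v₀) B.val = -y) :
    ∃ w : F, w ≠ 0 ∧ ∀ v : Place K F, v.ord w =
      (∑ b ∈ B, Finsupp.single b (1 : ℤ) + E
        - ((B.card + d : ℕ) : ℤ) • Finsupp.single v₀ (1 : ℤ) : Divisor K F) v := by
  obtain ⟨-, hmem, hmk⟩ := hE
  rw [cls_val htr v₀ B, ← hmk] at hB
  have hneg : -(Pic0.mk ⟨E - (d : ℤ) • Finsupp.single v₀ (1 : ℤ), hmem⟩ : Pic0 K F) =
      Pic0.mk ⟨-(E - (d : ℤ) • Finsupp.single v₀ (1 : ℤ)), neg_mem hmem⟩ := rfl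
  rw [hneg] at hB
  obtain ⟨w, hw0, hw⟩ := (ReducedCore.mk_eq_mk_iff _ _).mp hB.symm
  refine ⟨w, hw0, fun v => ?_⟩
  rw [← hw v]
  simp only [Finsupp.sub_apply, Finsupp.add_apply, Finsupp.neg_apply, Finsupp.smul_apply,
    smul_eq_mul]
  push_cast
  ring

/-- Linear equivalence to a divisor with `l = 1`. -/
theorem finrank_L_eq_one_of_ord (htr : Algebra.trdeg K F = 1) {D E : Divisor K F} {w : F}
    (hw0 : w ≠ 0) (hw : ∀ v : Place K F, v.ord w = (E - D) v)
    (hE : finrank K ↥(riemannRochSpace E) = 1) : finrank K ↥(riemannRochSpace D) = 1 := by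
  have h1 : (E - D) ∈ Divisor.principal (K := K) (F := F) := ⟨w, hw0, fun v => (hw v).symm⟩
  have h2 := (Divisor.principal (K := K) (F := F)).neg_mem h1
  rw [neg_sub] at h2
  rw [finrank_L_eq_of_principal htr h2, hE]

open Classical in
/-- **F4.**  The bound on fine classes: `H(E_x) + H(E_{-x}) ≤ q x + C` whenever both reduced
degrees are `g`. -/
theorem fine_bound (htr : Algebra.trdeg K F = 1) (v₀ : Place K F) {t : F}
    (hreg : ∀ v : Place K F, v ≠ v₀ → 0 ≤ v.ord t) (hpole : v₀.ord t ≤ -2)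
    (H : Place K F → ℝ) (Dd : Place K F → Place K F → ℝ) (hDd : ∀ a b, Dd a b = Dd b a)
    {n₀ : ℕ} (hPR : Pairing.PrincipalBound (MovingEff.ptClass htr v₀) (Pairing.lamOff v₀ H Dd))
    (hMOV : Pairing.Moving (MovingEff.ptClass htr v₀) n₀)
    (hF1 : ResidualBound v₀ H Dd) (hF3 : FibreBound t H Dd) (hF2 : FibrePairBound t H Dd) :
    ∃ C : ℝ, ∀ x : Pic0 K F, redDeg v₀ x = gR K F → redDeg v₀ (-x) = gR K F →
      HDiv H (redDiv v₀ x) + HDiv H (redDiv v₀ (-x)) ≤
        Pairing.quad (MovingEff.ptClass htr v₀) (Pairing.lamOff v₀ H Dd) n₀ x + C := by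
  classical
  -- `t` is not constant
  have htK : t ∉ Set.range (algebraMap K F) := by
    rintro ⟨c, rfl⟩
    rw [Fermat.Agent.S24.FF.ord_algebraMap] at hpole
    omega
  have ht : Transcendental K t := Fermat.Agent.S24.FF.transcendental_of_not_mem_range htK
  have ht0 : t ≠ 0 := fun h => htK ⟨0, by rw [h, map_zero]⟩
  have hpole' : v₀.ord t < 0 := by omega
  obtain ⟨m₀, hm₀⟩ : ∃ m₀ : ℕ, (m₀ : ℤ) = -(v₀.ord t) :=
    ⟨(-(v₀.ord t)).toNat, Int.toNat_of_nonneg (by omega)⟩
  have hm₀2 : 2 ≤ m₀ := by omega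
  -- the constants
  obtain ⟨N₀, hgen⟩ := exists_generic_member htr ht
  obtain ⟨n₁, hF1'⟩ := hF1
  obtain ⟨n, hn, hn1⟩ : ∃ n : ℕ, N₀ ≤ (n : ℤ) ∧ n₁ ≤ n := by
    refine ⟨N₀.toNat + n₁, ?_, by omega⟩
    have := Int.self_le_toNat N₀
    push_cast
    omega
  have hnm : n₁ ≤ n * m₀ - n := by
    have := Nat.mul_le_mul_left n hm₀2
    omega
  obtain ⟨C₁, hC₁⟩ := hF1' n hn1
  obtain ⟨C₁', hC₁'⟩ := hF1' (n * m₀ - n) hnm
  obtain ⟨C₃, hC₃⟩ := hF3
  obtain ⟨C₂, hC₂⟩ := hF2
  have hsymm := Pairing.lamOff_symm v₀ H hDd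
  obtain ⟨C₄, hC₄⟩ := Pairing.quad_spec_neg hsymm hPR hMOV (n * m₀)
  refine ⟨2 * max C₁ C₁' + n * C₃ + n * n * |C₂| + C₄, fun x hx hx' => ?_⟩
  obtain ⟨⟨D₀, hD₀⟩, rfl⟩ := Pic0.mk_surjective x
  have hdegv₀ : ((v₀.deg : ℕ) : ℤ) = 1 := by
    rw [Fermat.Agent.S24.FF.deg_eq_one htr v₀]
    rfl
  -- a generic member `Ad` of `|D₀ + n v₀|`
  obtain ⟨D, hD⟩ : ∃ D : Divisor K F, D = D₀ + (n : ℤ) • Finsupp.single v₀ (1 : ℤ) := ⟨_, rfl⟩
  have hdegD : Divisor.degree D = n := by
    rw [hD, map_add, Divisor.mem_degZero.mp hD₀, map_zsmul, Divisor.degree_single, hdegv₀]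
    simp
  obtain ⟨f, hf0, hfL, hle1, hS, -, hsep, hunr⟩ := hgen D (by rw [hdegD]; exact hn) {v₀}
  obtain ⟨Ad, hAd⟩ : ∃ Ad : Divisor K F, Ad = D + divOf K f := ⟨_, rfl⟩
  rw [← hAd] at hle1 hS hsep hunr
  have hAd0 : 0 ≤ Ad := by
    rw [hAd]
    exact add_divOf_nonneg htr hf0 hfL
  have hAd0' : ∀ v : Place K F, 0 ≤ Ad v := fun v => by
    have := Finsupp.le_def.mp hAd0 v
    simpa using this
  have hAdv₀ : Ad v₀ = 0 := hS v₀ (Finset.mem_singleton_self v₀)
  have hdegAd : Divisor.degree Ad = n := by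
    rw [hAd, map_add, hdegD, degree_divOf htr, add_zero]
  -- its set of points `A`
  obtain ⟨A, hA⟩ : ∃ A : Finset (Place K F), A = Ad.support := ⟨_, rfl⟩
  have hAmem : ∀ v : Place K F, v ∈ A ↔ Ad v ≠ 0 := fun v => by
    rw [hA, Finsupp.mem_support_iff]
  have hA1 : ∀ v ∈ A, Ad v = 1 := fun v hv => by
    have h1 := (hAmem v).mp hv
    have h2 := hAd0' v
    have h3 := hle1 v
    omega
  have hv₀A : v₀ ∉ A := fun h => (hAmem v₀).mp h hAdv₀
  have hAcard : A.card = n := by
    have h1 := MovingEff.degree_eq_sum_support htr Ad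
    rw [hdegAd, ← hA, Finset.sum_congr rfl hA1] at h1
    simp at h1
    exact_mod_cast h1.symm
  have hAdsum : Ad = ∑ a ∈ A, Finsupp.single a (1 : ℤ) := by
    ext v
    by_cases hv : v ∈ A
    · rw [sum_single_apply_of_mem hv, hA1 v hv]
    · rw [sum_single_apply_of_notMem hv]
      by_contra h
      exact hv ((hAmem v).mpr h)
  -- the class of `A` is `x`
  have hclsA : Pairing.cls (MovingEff.ptClass htr v₀) A.val = Pic0.mk ⟨D₀, hD₀⟩ := by
    rw [cls_val htr v₀ A]
    refine ((ReducedCore.mk_eq_mk_iff _ _).mpr ⟨f, hf0, fun v => ?_⟩).symm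
    rw [← hAdsum, hAcard, hAd, hD, ← divOf_apply htr f v]
    simp only [Finsupp.sub_apply, Finsupp.add_apply]
    ring
  -- the values of `t` on `A` and the fibres through `A`
  have hev := Glob.isEval_evalAt (K := K) (F := F) htr
  obtain ⟨val, hvaldef⟩ : ∃ val : Place K F → K, val = fun a => Glob.evalAt a t := ⟨_, rfl⟩
  have hval : ∀ a ∈ A, 0 < a.ord (t - algebraMap K F (val a)) := by
    intro a ha
    have hane : a ≠ v₀ := fun h => hv₀A (h ▸ ha)
    have hmem : t ∈ a.toValuationSubring :=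
      (Fermat.Agent.S24.FF.ord_nonneg_iff a ht0).mp (hreg a hane)
    rw [hvaldef]
    rcases hev.sub_eq_zero_or_ord_pos hmem with h | h
    · exact absurd ⟨_, (sub_eq_zero.mp h).symm⟩ htK
    · exact h
  obtain ⟨Fib, hFib⟩ : ∃ Fib : Place K F → Finset (Place K F),
      Fib = fun a => zeroSet K (t - algebraMap K F (val a)) := ⟨_, rfl⟩
  have hFibeq : ∀ a : Place K F, Fib a = zeroSet K (t - algebraMap K F (val a)) := fun a => by
    rw [hFib]
  have hFibmem : ∀ a u : Place K F, u ∈ Fib a ↔ 0 < u.ord (t - algebraMap K F (val a)) :=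
    fun a u => by
      rw [hFibeq]
      exact mem_zeroSet htr _ u
  have hsimple : ∀ a ∈ A, ∀ u : Place K F, 0 < u.ord (t - algebraMap K F (val a)) →
      u.ord (t - algebraMap K F (val a)) = 1 :=
    fun a ha u hu => hunr a ((hAmem a).mp ha) (val a) (hval a ha) u hu
  have hvalinj : ∀ a ∈ A, ∀ a' ∈ A, a ≠ a' → val a ≠ val a' := by
    intro a ha a' ha' hne heq
    exact hsep a a' ((hAmem a).mp ha) ((hAmem a').mp ha') hne (val a) (hval a ha)
      (by rw [heq]; exact hval a' ha')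
  have hdisj : ∀ a ∈ A, ∀ a' ∈ A, a ≠ a' → Disjoint (Fib a) (Fib a') := by
    intro a ha a' ha' hne
    rw [Finset.disjoint_left]
    intro u hu hu'
    exact hvalinj a ha a' ha' hne (zero_unique ((hFibmem a u).mp hu) ((hFibmem a' u).mp hu'))
  have hFibcard : ∀ a ∈ A, (Fib a).card = m₀ := by
    intro a ha
    have h1 := card_zeroSet_sub_const htr hreg hpole' (val a) (hsimple a ha)
    rw [← hFibeq a, ← hm₀] at h1
    exact_mod_cast h1
  have hselfmem : ∀ a ∈ A, a ∈ Fib a := fun a ha => (hFibmem a a).mpr (hval a ha)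
  have hv₀Fib : ∀ a : Place K F, v₀ ∉ Fib a := by
    intro a h
    have h1 := (hFibmem a v₀).mp h
    rw [ord_sub_const_of_neg v₀ hpole' (val a)] at h1
    omega
  -- the union `U` of the fibres and the complement `Ac` of `A` in it
  obtain ⟨U, hU⟩ : ∃ U : Finset (Place K F), U = A.biUnion Fib := ⟨_, rfl⟩
  have hAU : A ⊆ U := by
    intro a ha
    rw [hU, Finset.mem_biUnion]
    exact ⟨a, ha, hselfmem a ha⟩
  obtain ⟨Ac, hAc⟩ : ∃ Ac : Finset (Place K F), Ac = U \ A := ⟨_, rfl⟩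
  have hAAc : Disjoint A Ac := by
    rw [hAc]
    exact Finset.disjoint_sdiff
  have hUnion : A ∪ Ac = A.biUnion Fib := by
    rw [hAc, Finset.union_sdiff_of_subset hAU, hU]
  have hUcard : U.card = n * m₀ := by
    rw [hU, Finset.card_biUnion (fun a ha a' ha' hne => hdisj a ha a' ha' hne),
      Finset.sum_congr rfl hFibcard, Finset.sum_const, hAcard, smul_eq_mul]
  have hAccard : Ac.card = n * m₀ - n := by
    rw [hAc, Finset.card_sdiff_of_subset hAU, hUcard, hAcard]
  have hv₀U : v₀ ∉ U := by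
    rw [hU, Finset.mem_biUnion]
    rintro ⟨a, -, h⟩
    exact hv₀Fib a h
  have hv₀Ac : v₀ ∉ Ac := by
    rw [hAc]
    exact fun h => hv₀U (Finset.mem_sdiff.mp h).1
  -- the class of a fibre is zero
  have hclsFib : ∀ a ∈ A, Pairing.cls (MovingEff.ptClass htr v₀) (Fib a).val = 0 := by
    intro a ha
    have hdiv : divOf K (t - algebraMap K F (val a)) =
        ∑ u ∈ Fib a, Finsupp.single u (1 : ℤ)
          - ((Fib a).card : ℤ) • Finsupp.single v₀ (1 : ℤ) := by
      rw [divOf_sub_const htr hreg hpole' (val a) (hsimple a ha), hFibcard a ha, hFibeq a, hm₀,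
        Finsupp.smul_single, smul_eq_mul, mul_one]
    rw [cls_val htr v₀ (Fib a)]
    have h0 : (0 : Pic0 K F) = Pic0.mk ⟨0, zero_mem _⟩ := rfl
    rw [h0]
    refine ((ReducedCore.mk_eq_mk_iff _ _).mpr
      ⟨t - algebraMap K F (val a), sub_ne_zero.mpr fun h => htK ⟨_, h.symm⟩, fun v => ?_⟩).symm
    rw [← hdiv, divOf_apply htr]
    simp
  have hclsU : Pairing.cls (MovingEff.ptClass htr v₀) U.val = 0 := by
    have e : Pairing.cls (MovingEff.ptClass htr v₀) U.val =
        ∑ a ∈ A, Pairing.cls (MovingEff.ptClass htr v₀) (Fib a).val := by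
      show ∑ u ∈ U, MovingEff.ptClass htr v₀ u =
        ∑ a ∈ A, ∑ u ∈ Fib a, MovingEff.ptClass htr v₀ u
      rw [hU, Finset.sum_biUnion (fun a ha a' ha' hne =>
        hdisj a (Finset.mem_coe.mp ha) a' (Finset.mem_coe.mp ha') hne)]
    rw [e]
    exact Finset.sum_eq_zero hclsFib
  have hclsAc : Pairing.cls (MovingEff.ptClass htr v₀) Ac.val = -Pic0.mk ⟨D₀, hD₀⟩ := by
    have e : Pairing.cls (MovingEff.ptClass htr v₀) U.val =
        Pairing.cls (MovingEff.ptClass htr v₀) A.val +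
          Pairing.cls (MovingEff.ptClass htr v₀) Ac.val := by
      show ∑ u ∈ U, MovingEff.ptClass htr v₀ u =
        ∑ u ∈ A, MovingEff.ptClass htr v₀ u + ∑ u ∈ Ac, MovingEff.ptClass htr v₀ u
      rw [← Finset.sum_union hAAc, hUnion, hU]
    rw [hclsU, hclsA] at e
    exact eq_neg_of_add_eq_zero_right e.symm
  -- the reduced divisors
  have hE₂ : IsEffRep v₀ (Pic0.mk ⟨D₀, hD₀⟩) (gR K F) (redDiv v₀ (Pic0.mk ⟨D₀, hD₀⟩)) := by
    have := isEffRep_redDiv htr v₀ (Pic0.mk ⟨D₀, hD₀⟩)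
    rwa [hx] at this
  have hE₁ : IsEffRep v₀ (-Pic0.mk ⟨D₀, hD₀⟩) (gR K F) (redDiv v₀ (-Pic0.mk ⟨D₀, hD₀⟩)) := by
    have := isEffRep_redDiv htr v₀ (-Pic0.mk ⟨D₀, hD₀⟩)
    rwa [hx'] at this
  -- F1 for `A`: the residual divisor is the reduced divisor of `-x`
  have h1 : HDiv H (redDiv v₀ (-Pic0.mk ⟨D₀, hD₀⟩)) ≤
      theta (gR K F) H Dd A + max C₁ C₁' := by
    obtain ⟨w, hw0, hw⟩ := exists_ord_eq_of_cls htr v₀ A hE₁ (by rw [hclsA, neg_neg])
    rw [hAcard] at hw
    have hfin : finrank K ↥(riemannRochSpace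
        (((n + gR K F : ℕ) : ℤ) • Finsupp.single v₀ (1 : ℤ)
          - ∑ a ∈ A, Finsupp.single a (1 : ℤ) : Divisor K F)) = 1 := by
      refine finrank_L_eq_one_of_ord htr (E := redDiv v₀ (-Pic0.mk ⟨D₀, hD₀⟩)) hw0 (fun v => ?_)
        (finrank_L_redDiv htr v₀ _)
      rw [hw v]
      congr 1
      abel
    have h := hC₁ A (redDiv v₀ (-Pic0.mk ⟨D₀, hD₀⟩)) w hAcard hv₀A (redDiv_nonneg htr v₀ _)
      (redDiv_apply_self htr v₀ _) hw0 hw hfin
    have := le_max_left C₁ C₁'
    linarith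
  -- F1 for `Ac`: the residual divisor is the reduced divisor of `x`
  have h2 : HDiv H (redDiv v₀ (Pic0.mk ⟨D₀, hD₀⟩)) ≤
      theta (gR K F) H Dd Ac + max C₁ C₁' := by
    obtain ⟨w, hw0, hw⟩ := exists_ord_eq_of_cls htr v₀ Ac hE₂ hclsAc
    rw [hAccard] at hw
    have hfin : finrank K ↥(riemannRochSpace
        (((n * m₀ - n + gR K F : ℕ) : ℤ) • Finsupp.single v₀ (1 : ℤ)
          - ∑ a ∈ Ac, Finsupp.single a (1 : ℤ) : Divisor K F)) = 1 := by
      refine finrank_L_eq_one_of_ord htr (E := redDiv v₀ (Pic0.mk ⟨D₀, hD₀⟩)) hw0 (fun v => ?_)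
        (finrank_L_redDiv htr v₀ _)
      rw [hw v]
      congr 1
      abel
    have h := hC₁' Ac (redDiv v₀ (Pic0.mk ⟨D₀, hD₀⟩)) w hAccard hv₀Ac (redDiv_nonneg htr v₀ _)
      (redDiv_apply_self htr v₀ _) hw0 hw hfin
    have := le_max_right C₁ C₁'
    linarith
  -- `q x ≥ -PP A Ac - C₄`
  have hq : -PP H Dd A Ac - C₄ ≤
      Pairing.quad (MovingEff.ptClass htr v₀) (Pairing.lamOff v₀ H Dd) n₀
        (Pic0.mk ⟨D₀, hD₀⟩) := by
    have h := hC₄ A.val Ac.val
      (by rw [Finset.card_val, hAcard]; exact Nat.le_mul_of_pos_right n (by omega))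
      (by rw [Finset.card_val, hAccard]; exact Nat.sub_le _ _)
      (fun b hb hbA => Finset.disjoint_left.mp hAAc (Finset.mem_val.mp hbA)
        (Finset.mem_val.mp hb))
      (by rw [hclsA, hclsAc, add_neg_cancel])
    rw [hclsA, Pairing.pair_lamOff_val v₀ H Dd hv₀A hv₀Ac] at h
    have h' := (abs_le.mp h).1
    unfold PP HS
    linarith
  have hfib : ∀ a ∈ A, theta (gR K F) H Dd (Fib a) ≤ C₃ := fun a ha =>
    hC₃ (val a) (Fib a) (hFibmem a) (fun u hu => hsimple a ha u ((hFibmem a u).mp hu))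
  have hPP : ∀ a ∈ A, ∀ a' ∈ A, a ≠ a' → PP H Dd (Fib a) (Fib a') ≤ C₂ :=
    fun a ha a' ha' hne =>
      (le_abs_self _).trans (hC₂ (val a) (val a') (Fib a) (Fib a') (hvalinj a ha a' ha' hne)
        (hFibmem a) (hFibmem a') (fun u hu => hsimple a ha u ((hFibmem a u).mp hu))
        (fun u hu => hsimple a' ha' u ((hFibmem a' u).mp hu)))
  have key := le_q_of_fibres (gR K F) H Dd hDd A Fib hdisj hAAc hUnion _ _ _ (max C₁ C₁') C₂ C₃
    C₄ hq h1 h2 hfib hPP
  rw [hAcard] at key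
  linarith

/-- **F4, weak form** (the literal consumed by the special-locus exit F5e): for a nonnegative
point height, `H(E_x) ≤ q x + C` on fine classes. -/
theorem fine_bound_weak (htr : Algebra.trdeg K F = 1) (v₀ : Place K F) {t : F}
    (hreg : ∀ v : Place K F, v ≠ v₀ → 0 ≤ v.ord t) (hpole : v₀.ord t ≤ -2)
    (H : Place K F → ℝ) (hH : ∀ P, 0 ≤ H P) (Dd : Place K F → Place K F → ℝ)
    (hDd : ∀ a b, Dd a b = Dd b a)
    {n₀ : ℕ} (hPR : Pairing.PrincipalBound (MovingEff.ptClass htr v₀) (Pairing.lamOff v₀ H Dd))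
    (hMOV : Pairing.Moving (MovingEff.ptClass htr v₀) n₀)
    (hF1 : ResidualBound v₀ H Dd) (hF3 : FibreBound t H Dd) (hF2 : FibrePairBound t H Dd) :
    ∃ C : ℝ, ∀ x : Pic0 K F, redDeg v₀ x = gR K F → redDeg v₀ (-x) = gR K F →
      ((redDiv v₀ x).sum fun P n => (n : ℝ) * H P) ≤
        Pairing.quad (MovingEff.ptClass htr v₀) (Pairing.lamOff v₀ H Dd) n₀ x + C := by
  obtain ⟨C, hC⟩ := fine_bound htr v₀ hreg hpole H Dd hDd hPR hMOV hF1 hF3 hF2
  refine ⟨C, fun x hx hx' => ?_⟩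
  have h := hC x hx hx'
  have h0 : 0 ≤ HDiv H (redDiv v₀ (-x)) := by
    unfold HDiv
    refine Finsupp.sum_nonneg' fun P => mul_nonneg ?_ (hH P)
    have := Finsupp.le_def.mp (redDiv_nonneg htr v₀ (-x)) P
    exact_mod_cast this
  unfold HDiv at h h0
  linarith

end Fermat.Agent.S17.H.F
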