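import Mathlib
import Fermat.Agent.S17.R.LSpace
import Fermat.Agent.S17.H.Pairing.Exit
import Fermat.Agent.S17.H.F.Theta
import Fermat.Agent.S17.H.F.FineIface

/-!
# Program MW (S17), strand H, block F, leaf F2: two unramified fibres, from `ChowLD` alone

`F / K` a function field of one variable over an algebraically closed field of characteristic
zero, `v₀` the base place, `t` a function regular off `v₀` with a pole at `v₀`, `H` a height on
places and `Dd` a pair term with `Pairing.ChowLD v₀ H Dd` (= the exits D1 and D2 of block D in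
the packaging of block E).

`fibrePairBound_of_chowLD` : `FibrePairBound t H Dd` (the output of leaf F2 in the interface of
`FineIface.lean`), i.e. `|PP H Dd Fib Fib'| ≤ C` for the fibres `Fib`, `Fib'` of `t` over two
distinct values `c ≠ c'`, both unramified.

Proof.  `s := t - c` lies in `L(M v₀)`, `M` the pole order of `t`; `ChowLD` gives ONE number `t_s`
with `|H(Fib) - t_s| ≤ C` and, at every `b ∈ Fib'` (`b ≠ v₀` and `ord_b s = 0` as `c ≠ c'`),
`|∑ a ∈ Fib, Dd a b - t_s - #Fib * H b| ≤ C`; these are the two hypotheses of `abs_PP_le` (F0).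
`#Fib' = M` because a principal divisor has degree zero.
-/

set_option autoImplicit false
set_option linter.unusedSectionVars false

namespace Fermat.Agent.S17.H.F

open AlgebraicCurve
open Fermat.Agent.S17.R

namespace FibrePair

variable {K F : Type*} [Field K] [Field F] [Algebra K F]

/-- At a pole of `t`, `t - c` has the order of `t`. -/
theorem ord_sub_algebraMap_of_neg (v : Place K F) {t : F} (h : v.ord t < 0) (c : K) :
    v.ord (t - algebraMap K F c) = v.ord t := by
  by_cases hc : c = 0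
  · rw [hc, map_zero, sub_zero]
  · have ht0 : t ≠ 0 := by
      rintro rfl
      rw [v.ord_zero] at h
      exact lt_irrefl _ h
    have hc0 : -algebraMap K F c ≠ 0 := neg_ne_zero.mpr ((map_ne_zero (algebraMap K F)).mpr hc)
    rw [sub_eq_add_neg]
    refine Fermat.Agent.S24.FF.ord_add_eq_of_lt v ?_ ht0 hc0
    rw [Fermat.Agent.S24.FF.ord_neg, Fermat.Agent.S24.FF.ord_algebraMap]
    exact h

/-- Where `t` is regular, so is `t - c`. -/
theorem ord_sub_algebraMap_nonneg (v : Place K F) {t : F} (h : 0 ≤ v.ord t) (c : K) :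
    0 ≤ v.ord (t - algebraMap K F c) := by
  by_cases h0 : t - algebraMap K F c = 0
  · rw [h0, v.ord_zero]
  · have h1 := Fermat.Agent.S24.FF.ord_sub_ge v (f := t) (g := algebraMap K F c) h0
    rw [Fermat.Agent.S24.FF.ord_algebraMap] at h1
    exact (le_min h le_rfl).trans h1

/-- At a zero of `t - c'`, the function `t - c` is a unit when `c ≠ c'`. -/
theorem ord_sub_algebraMap_eq_zero (v : Place K F) {t : F} {c c' : K} (hcc : c ≠ c')
    (h : 0 < v.ord (t - algebraMap K F c')) : v.ord (t - algebraMap K F c) = 0 := by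
  have hd : algebraMap K F (c' - c) ≠ 0 :=
    (map_ne_zero (algebraMap K F)).mpr (sub_ne_zero.mpr hcc.symm)
  have hne : t - algebraMap K F c' ≠ 0 := by
    intro h0
    rw [h0, v.ord_zero] at h
    exact lt_irrefl _ h
  have e : t - algebraMap K F c = algebraMap K F (c' - c) + (t - algebraMap K F c') := by
    rw [map_sub]
    ring
  have hlt : v.ord (algebraMap K F (c' - c)) < v.ord (t - algebraMap K F c') := by
    rw [Fermat.Agent.S24.FF.ord_algebraMap]
    exact h
  rw [e, Fermat.Agent.S24.FF.ord_add_eq_of_lt v hlt hd hne, Fermat.Agent.S24.FF.ord_algebraMap]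

/-- A sum over the places `≠ v₀`, weighted by the orders of a function `s` which is regular off
`v₀`, has a pole at `v₀` and whose zeros are the points of `Fib`, all simple: it is the sum
over `Fib`. -/
theorem finsum_ord_mul_eq_sum {v₀ : Place K F} {s : F} {Fib : Finset (Place K F)}
    (hmem : ∀ u : Place K F, u ∈ Fib ↔ 0 < u.ord s) (hsimple : ∀ u ∈ Fib, u.ord s = 1)
    (hreg : ∀ v : Place K F, v ≠ v₀ → 0 ≤ v.ord s) (hv₀ : v₀.ord s < 0) (f : Place K F → ℝ) :
    (∑ᶠ v ∈ {v : Place K F | v ≠ v₀}, ((v.ord s : ℤ) : ℝ) * f v) = ∑ u ∈ Fib, f u := by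
  have h1 : (∑ᶠ v ∈ {v : Place K F | v ≠ v₀}, ((v.ord s : ℤ) : ℝ) * f v)
      = ∑ u ∈ Fib, ((u.ord s : ℤ) : ℝ) * f u := by
    refine finsum_mem_eq_sum_of_inter_support_eq _ ?_
    ext v
    simp only [Set.mem_inter_iff, Set.mem_ofPred_eq, Function.mem_support, Finset.mem_coe]
    constructor
    · rintro ⟨hv, hne⟩
      refine ⟨(hmem v).mpr ?_, hne⟩
      have h0 := hreg v hv
      have h2 : v.ord s ≠ 0 := by
        intro h3
        apply hne
        rw [h3, Int.cast_zero, zero_mul]
      omega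
    · rintro ⟨hv, hne⟩
      refine ⟨?_, hne⟩
      intro hvv
      have h0 := (hmem v).mp hv
      rw [hvv] at h0
      omega
  rw [h1]
  refine Finset.sum_congr rfl fun u hu => ?_
  rw [hsimple u hu, Int.cast_one, one_mul]

section Curve

variable [IsAlgClosed K] [CharZero K] [Algebra.EssFiniteType K F]

/-- A function regular off `v₀` with simple zeros has as many zeros as its pole order at `v₀`. -/
theorem card_eq_neg_ord (htr : Algebra.trdeg K F = 1) {v₀ : Place K F} {s : F} (hs0 : s ≠ 0)
    {Fib : Finset (Place K F)}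
    (hmem : ∀ u : Place K F, u ∈ Fib ↔ 0 < u.ord s) (hsimple : ∀ u ∈ Fib, u.ord s = 1)
    (hreg : ∀ v : Place K F, v ≠ v₀ → 0 ≤ v.ord s) (hv₀ : v₀.ord s < 0) :
    (Fib.card : ℤ) = -(v₀.ord s) := by
  classical
  have hv₀Fib : v₀ ∉ Fib := by
    intro h
    have h0 := (hmem v₀).mp h
    omega
  have hEv : ∀ v : Place K F,
      (∑ u ∈ Fib, Finsupp.single u (1 : ℤ) + Finsupp.single v₀ (v₀.ord s) : Divisor K F) v
        = v.ord s := by
    intro v
    rw [Finsupp.add_apply, Finsupp.finsetSum_apply]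
    by_cases hv : v = v₀
    · rw [hv]
      simp [Finsupp.single_apply, hv₀Fib]
    · by_cases hvF : v ∈ Fib
      · have h1 := hsimple v hvF
        simp [Finsupp.single_apply, hvF, hv, h1]
      · have h0 := hreg v hv
        have h1 : ¬ 0 < v.ord s := fun h => hvF ((hmem v).mpr h)
        have h2 : v.ord s = 0 := by omega
        simp [Finsupp.single_apply, hvF, hv, h2]
  have hdeg := Fermat.Agent.S24.FF.degree_eq_zero_of_ord htr hs0 _ hEv
  rw [map_add, map_sum] at hdeg
  simp only [Divisor.degree_single, Fermat.Agent.S24.FF.deg_eq_one htr] at hdeg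
  simp at hdeg
  linarith

end Curve

end FibrePair

variable {K F : Type*} [Field K] [Field F] [Algebra K F]
variable [IsAlgClosed K] [CharZero K] [Algebra.EssFiniteType K F]

open Classical in
/-- **Leaf F2** (the output `FibrePairBound t H Dd` of the F4 interface): for a function `t`
regular off `v₀` with a pole at `v₀`, the term `PP` of two distinct unramified fibres of `t` is
bounded, as soon as `H`, `Dd` satisfy `Pairing.ChowLD v₀ H Dd`. -/
theorem fibrePairBound_of_chowLD (htr : Algebra.trdeg K F = 1) (v₀ : Place K F) {t : F}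
    (hreg : ∀ v : Place K F, v ≠ v₀ → 0 ≤ v.ord t) (hpole : v₀.ord t < 0)
    (H : Place K F → ℝ) (Dd : Place K F → Place K F → ℝ)
    (hD12 : Pairing.ChowLD v₀ H Dd) : FibrePairBound t H Dd := by
  unfold FibrePairBound
  obtain ⟨M, hM⟩ : ∃ M : ℕ, (M : ℤ) = -(v₀.ord t) :=
    ⟨(-(v₀.ord t)).toNat, Int.toNat_of_nonneg (by omega)⟩
  obtain ⟨C, hC⟩ := hD12 M
  refine ⟨(M : ℝ) * (C + C), ?_⟩
  intro c c' Fib Fib' hcc hFib hFib' hs hs'
  have hord : ∀ a : K, v₀.ord (t - algebraMap K F a) = v₀.ord t :=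
    fun a => FibrePair.ord_sub_algebraMap_of_neg v₀ hpole a
  have hregs : ∀ a : K, ∀ v : Place K F, v ≠ v₀ → 0 ≤ v.ord (t - algebraMap K F a) :=
    fun a v hv => FibrePair.ord_sub_algebraMap_nonneg v (hreg v hv) a
  have hne : ∀ a : K, t - algebraMap K F a ≠ 0 := by
    intro a h0
    have h1 := hord a
    rw [h0, v₀.ord_zero] at h1
    omega
  have hv₀s : ∀ a : K, v₀.ord (t - algebraMap K F a) < 0 := by
    intro a
    rw [hord a]
    exact hpole
  -- `s = t - c` lies in `L(M v₀)`
  have hsL : t - algebraMap K F c ∈ riemannRochSpace ((M : ℤ) • Finsupp.single v₀ (1 : ℤ)) := by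
    rw [mem_L_of_ne_zero (hne c)]
    intro v
    rw [Finsupp.smul_apply, smul_eq_mul]
    by_cases hv : v = v₀
    · rw [hv, Finsupp.single_eq_same, mul_one, hord c]
      omega
    · rw [Finsupp.single_eq_of_ne hv, mul_zero, neg_zero]
      exact hregs c v hv
  obtain ⟨ts, h1, h2⟩ := hC (t - algebraMap K F c) (hne c) hsL
  have e1 : (∑ᶠ v ∈ {v : Place K F | v ≠ v₀},
      ((v.ord (t - algebraMap K F c) : ℤ) : ℝ) * H v) = ∑ u ∈ Fib, H u :=
    FibrePair.finsum_ord_mul_eq_sum hFib hs (hregs c) (hv₀s c) H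
  rw [e1] at h1
  have hcard : (Fib.card : ℤ) = -(v₀.ord (t - algebraMap K F c)) :=
    FibrePair.card_eq_neg_ord htr (hne c) hFib hs (hregs c) (hv₀s c)
  have hcard' : (Fib'.card : ℤ) = -(v₀.ord (t - algebraMap K F c')) :=
    FibrePair.card_eq_neg_ord htr (hne c') hFib' hs' (hregs c') (hv₀s c')
  have hcardM : Fib'.card = M := by
    have h3 := hord c'
    have h4 : (Fib'.card : ℤ) = (M : ℤ) := by omega
    exact_mod_cast h4
  have hld : ∀ b ∈ Fib', |∑ a ∈ Fib, Dd a b - ts - (Fib.card : ℝ) * H b| ≤ C := by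
    intro b hb
    have hb0 : 0 < b.ord (t - algebraMap K F c') := (hFib' b).mp hb
    have hbv : b ≠ v₀ := by
      intro hbv
      rw [hbv] at hb0
      have h3 := hv₀s c'
      omega
    have hbs : b.ord (t - algebraMap K F c) = 0 :=
      FibrePair.ord_sub_algebraMap_eq_zero b hcc hb0
    have h3 := h2 b hbv hbs
    have e2 : (∑ᶠ v ∈ {v : Place K F | v ≠ v₀},
        ((v.ord (t - algebraMap K F c) : ℤ) : ℝ) * Dd v b) = ∑ u ∈ Fib, Dd u b :=
      FibrePair.finsum_ord_mul_eq_sum hFib hs (hregs c) (hv₀s c) (fun v => Dd v b)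
    rw [e2] at h3
    have h4 : ((v₀.ord (t - algebraMap K F c) : ℤ) : ℝ) = -(Fib.card : ℝ) := by
      have h5 : v₀.ord (t - algebraMap K F c) = -(Fib.card : ℤ) := by omega
      rw [h5]
      push_cast
      ring
    rw [h4] at h3
    have e3 : ∑ a ∈ Fib, Dd a b - ts - (Fib.card : ℝ) * H b
        = ∑ u ∈ Fib, Dd u b - ts + -(Fib.card : ℝ) * H b := by ring
    rw [e3]
    exact h3
  have hfin := abs_PP_le (H := H) (D := Dd) (A := Fib) (B := Fib') ts C C h1 hld
  rw [hcardM] at hfin
  exact hfin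

end Fermat.Agent.S17.H.F
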