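import Mathlib

/-!
# Program MW (S17), strand H, block F, leaf F1a: the determinant section (linear algebra)

`V` a vector space with a basis `b` of `n + 1` vectors (for the curve: `V = L((n+g) ∞)`, basis
`ψ`), `ev : Fin n → V →ₗ[K] K` functionals (evaluation at the points `a_1, .., a_n` of a
multiplicity-free divisor `A`) whose common kernel is a line (`L((n+g) ∞ - A)` of dimension `1`).

`cof b ev i` is the signed `n`-minor of the table `[ev j (b i)]` obtained by deleting the basis
vector `i`.  Then

* `sum_cof_mul` : `∑ i, cof b ev i * f (b i)` is the `(n+1) × (n+1)` determinant with first row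
  `f (b i)` and the other rows `ev j (b i)` (Laplace expansion), for every functional `f`;
* `exists_det_section` : the vector `cof b ev` is non-zero and the section
  `w := ∑ i, cof b ev i • b i` is killed by every `ev j`.

So `w` spans the common kernel, and its coefficient vector in the basis `b` is the vector of
the `n`-minors: this is the section `w_A` of block F.
-/

set_option autoImplicit false

namespace Fermat.Agent.S17.H.F

open Module

variable {K V : Type*} [Field K] [AddCommGroup V] [Module K V]

/-- `g` functionals on a space with a basis of `g` vectors, with no common non-zero kernel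
vector: the matrix of their values on the basis has a non-zero determinant. -/
theorem det_ne_zero_of_functionals {g : ℕ} (b : Basis (Fin g) K V) (ev : Fin g → V →ₗ[K] K)
    (h : ∀ f : V, (∀ j, ev j f = 0) → f = 0) :
    Matrix.det (Matrix.of fun i j => ev j (b i)) ≠ 0 := by
  intro hdet
  obtain ⟨c, hc, hcM⟩ := Matrix.exists_vecMul_eq_zero_iff.mpr hdet
  apply hc
  have hf : ∑ i, c i • b i = 0 := by
    apply h
    intro j
    have h1 := congrFun hcM j
    simp only [Matrix.vecMul, dotProduct, Matrix.of_apply, Pi.zero_apply] at h1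
    rw [map_sum]
    rw [← h1]
    refine Finset.sum_congr rfl ?_
    intro i _
    rw [map_smul, smul_eq_mul]
  funext i
  exact (Fintype.linearIndependent_iff.mp b.linearIndependent) c hf i

/-- The signed `n`-minors of the table `[ev j (b i)]`. -/
noncomputable def cof {n : ℕ} (b : Basis (Fin (n + 1)) K V) (ev : Fin n → V →ₗ[K] K) :
    Fin (n + 1) → K :=
  fun i => (-1 : K) ^ (i : ℕ) *
    Matrix.det (Matrix.of fun (j : Fin n) (i' : Fin n) => ev j (b (i.succAbove i')))

/-- The table with first row `f` and the other rows `ev j`. -/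
noncomputable def fullTable {n : ℕ} (b : Basis (Fin (n + 1)) K V) (ev : Fin n → V →ₗ[K] K)
    (f : V →ₗ[K] K) : Matrix (Fin (n + 1)) (Fin (n + 1)) K :=
  Matrix.of fun (r : Fin (n + 1)) (i : Fin (n + 1)) =>
    (Fin.cases (motive := fun _ => V →ₗ[K] K) f ev r) (b i)

theorem fullTable_zero {n : ℕ} (b : Basis (Fin (n + 1)) K V) (ev : Fin n → V →ₗ[K] K)
    (f : V →ₗ[K] K) (i : Fin (n + 1)) : fullTable b ev f 0 i = f (b i) := rfl

theorem fullTable_succ {n : ℕ} (b : Basis (Fin (n + 1)) K V) (ev : Fin n → V →ₗ[K] K)
    (f : V →ₗ[K] K) (j : Fin n) (i : Fin (n + 1)) : fullTable b ev f j.succ i = ev j (b i) := rfl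

/-- Laplace expansion along the first row. -/
theorem sum_cof_mul {n : ℕ} (b : Basis (Fin (n + 1)) K V) (ev : Fin n → V →ₗ[K] K)
    (f : V →ₗ[K] K) : ∑ i, cof b ev i * f (b i) = Matrix.det (fullTable b ev f) := by
  rw [Matrix.det_succ_row_zero]
  refine Finset.sum_congr rfl fun i _ => ?_
  have hsub : (fullTable b ev f).submatrix Fin.succ i.succAbove =
      Matrix.of fun (j : Fin n) (i' : Fin n) => ev j (b (i.succAbove i')) := by
    ext j i'
    rfl
  rw [hsub, fullTable_zero]
  unfold cof
  ring

/-- The section `∑ i, cof b ev i • b i` evaluated by a functional. -/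
theorem apply_sum_cof {n : ℕ} (b : Basis (Fin (n + 1)) K V) (ev : Fin n → V →ₗ[K] K)
    (f : V →ₗ[K] K) : f (∑ i, cof b ev i • b i) = Matrix.det (fullTable b ev f) := by
  rw [← sum_cof_mul, map_sum]
  refine Finset.sum_congr rfl fun i _ => ?_
  rw [map_smul, smul_eq_mul]

/-- The section is killed by every `ev j` (two equal rows). -/
theorem ev_sum_cof {n : ℕ} (b : Basis (Fin (n + 1)) K V) (ev : Fin n → V →ₗ[K] K) (j : Fin n) :
    ev j (∑ i, cof b ev i • b i) = 0 := by
  rw [apply_sum_cof]
  refine Matrix.det_zero_of_row_eq (i := 0) (j := j.succ) (Fin.succ_ne_zero j).symm ?_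
  funext i
  rw [fullTable_zero, fullTable_succ]

/-- **F1a.**  If the common kernel of the `ev j` is a line, the vector of signed `n`-minors is
non-zero and the section `w = ∑ i, cof b ev i • b i` is killed by every `ev j`. -/
theorem exists_det_section {n : ℕ} (b : Basis (Fin (n + 1)) K V) (ev : Fin n → V →ₗ[K] K)
    (h1 : finrank K ↥(⨅ j, LinearMap.ker (ev j) : Submodule K V) = 1) :
    cof b ev ≠ 0 ∧ ∀ j, ev j (∑ i, cof b ev i • b i) = 0 := by
  refine ⟨?_, ev_sum_cof b ev⟩
  intro hcof
  -- a non-zero vector of the kernel line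
  have hW : (⨅ j, LinearMap.ker (ev j) : Submodule K V) ≠ ⊥ := by
    intro hbot
    have h0 : finrank K ↥(⊥ : Submodule K V) = 0 := finrank_bot K V
    rw [hbot, h0] at h1
    exact zero_ne_one h1
  obtain ⟨w₀, hw₀W, hw₀⟩ := Submodule.exists_mem_ne_zero_of_ne_bot hW
  have hw₀ev : ∀ j, ev j w₀ = 0 := by
    intro j
    have h2 := (Submodule.mem_iInf _).mp hw₀W j
    exact LinearMap.mem_ker.mp h2
  -- a coordinate functional which does not vanish at `w₀`
  obtain ⟨i₀, hi₀⟩ : ∃ i₀, b.coord i₀ w₀ ≠ 0 := by
    by_contra hcon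
    push Not at hcon
    exact hw₀ (b.forall_coord_eq_zero_iff.mp hcon)
  -- every vector of the kernel line is a multiple of `w₀`
  have hline : ∀ u : V, (∀ j, ev j u = 0) → ∃ c : K, c • w₀ = u := by
    intro u hu
    have huW : u ∈ (⨅ j, LinearMap.ker (ev j) : Submodule K V) :=
      (Submodule.mem_iInf _).mpr fun j => LinearMap.mem_ker.mpr (hu j)
    have hne : (⟨w₀, hw₀W⟩ : ↥(⨅ j, LinearMap.ker (ev j) : Submodule K V)) ≠ 0 := by
      intro h0
      exact hw₀ (congrArg Subtype.val h0)
    obtain ⟨c, hc⟩ := (finrank_eq_one_iff_of_nonzero' _ hne).mp h1 ⟨u, huW⟩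
    exact ⟨c, congrArg Subtype.val hc⟩
  -- the completed family of `n + 1` functionals has no common non-zero kernel vector
  have hker : ∀ u : V, (∀ r : Fin (n + 1),
      (Fin.cases (motive := fun _ => V →ₗ[K] K) (b.coord i₀) ev r) u = 0) → u = 0 := by
    intro u hu
    have hu0 : b.coord i₀ u = 0 := hu 0
    have huj : ∀ j, ev j u = 0 := fun j => hu j.succ
    obtain ⟨c, hc⟩ := hline u huj
    rw [← hc, map_smul, smul_eq_mul] at hu0
    have hc0 : c = 0 := by
      rcases mul_eq_zero.mp hu0 with h | h
      · exact h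
      · exact absurd h hi₀
    rw [← hc, hc0, zero_smul]
  have hdet := det_ne_zero_of_functionals b
    (fun r => Fin.cases (motive := fun _ => V →ₗ[K] K) (b.coord i₀) ev r) hker
  -- that determinant is the determinant of `fullTable`, transposed
  have htr : (Matrix.of fun (i : Fin (n + 1)) (r : Fin (n + 1)) =>
      (Fin.cases (motive := fun _ => V →ₗ[K] K) (b.coord i₀) ev r) (b i)) =
      (fullTable b ev (b.coord i₀)).transpose := by
    ext i r
    rfl
  rw [htr, Matrix.det_transpose, ← sum_cof_mul, hcof] at hdet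
  apply hdet
  simp

end Fermat.Agent.S17.H.F
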