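import Mathlib
import Fermat.Agent.S17.R.LSpace
import Fermat.Agent.S17.H.Glob.Eval
import Fermat.Agent.S17.H.F.DetSection

/-!
# Program MW (S17), strand H, block F, leaf F1b: the determinant section on the curve

Curve adapter of leaf F1a (`DetSection.lean`), typed for an arbitrary value function
`ev` (`Glob.IsEval ev`), so that the global statements of block D apply verbatim.

`D` a divisor, `a : Fin n → Place K F` points with `D (a j) = 0`, `E` the multiplicity-free
divisor of the points `a j` (`E (a j) = 1`, `E v = 0` off the points), `b` a basis of `L(D)` of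
`n + 1` sections.  `detCoeff ev a b i` is the signed `n`-minor of the table of values
`[ev (a j) (b i)]` obtained by deleting the section `i`.  If `l(D - E) = 1` then

* the vector `detCoeff ev a b` is non-zero,
* the section `w = ∑ i, detCoeff ev a b i • b i` lies in `L(D - E)` and is non-zero

(`exists_det_section_curve`); `exists_det_section_point` is the case `D = M · v₀`,
`E = ∑ j, a j` of block F (`M = n + g`).  `ev_det_section` is the determinant formula for the
value of `w` at any further place.
-/

set_option autoImplicit false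

namespace Fermat.Agent.S17.H.F

open AlgebraicCurve Module
open Fermat.Agent.S17.R Fermat.Agent.S17.H.Glob

variable {K F : Type*} [Field K] [Field F] [Algebra K F]

/-- A section of `D` is regular at a place where `D` is `≤ 0`. -/
theorem mem_valuationSubring_of_mem_L {D : Divisor K F} {a : Place K F} (hDa : D a ≤ 0) {f : F}
    (hf : f ∈ riemannRochSpace D) : f ∈ a.toValuationSubring := by
  by_cases hf0 : f = 0
  · rw [hf0]
    exact zero_mem _
  · have h := (mem_L_of_ne_zero hf0).mp hf a
    exact (Fermat.Agent.S24.FF.ord_nonneg_iff a hf0).mp (by omega)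

/-- Evaluation at a place `a` with `D a ≤ 0`, as a functional on `L(D)`. -/
noncomputable def evL {ev : Place K F → F → K} (hev : IsEval ev) (D : Divisor K F)
    (a : Place K F) (hDa : D a ≤ 0) : ↥(riemannRochSpace D) →ₗ[K] K where
  toFun f := ev a (f : F)
  map_add' f g := hev.map_add (mem_valuationSubring_of_mem_L hDa f.2)
    (mem_valuationSubring_of_mem_L hDa g.2)
  map_smul' c f := hev.map_smul c (mem_valuationSubring_of_mem_L hDa f.2)

theorem evL_apply {ev : Place K F → F → K} (hev : IsEval ev) (D : Divisor K F)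
    (a : Place K F) (hDa : D a ≤ 0) (f : ↥(riemannRochSpace D)) :
    evL hev D a hDa f = ev a (f : F) := rfl

/-- The functional vanishes exactly on the sections with a zero at `a`. -/
theorem evL_eq_zero_iff {ev : Place K F → F → K} (hev : IsEval ev) (D : Divisor K F)
    (a : Place K F) (hDa : D a ≤ 0) (f : ↥(riemannRochSpace D)) :
    evL hev D a hDa f = 0 ↔ ((f : F) = 0 ∨ 0 < a.ord (f : F)) :=
  hev.eq_zero_iff (mem_valuationSubring_of_mem_L hDa f.2)

/-- The sections of `D` vanishing at the points `a j` are the sections of `D - E`. -/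
theorem mem_L_sub_points_iff {n : ℕ} (D E : Divisor K F) (a : Fin n → Place K F)
    (hD : ∀ j, D (a j) = 0) (hE1 : ∀ j, E (a j) = 1) (hE0 : ∀ v, (∀ j, v ≠ a j) → E v = 0)
    (f : F) :
    f ∈ riemannRochSpace (D - E) ↔
      f ∈ riemannRochSpace D ∧ ∀ j, f = 0 ∨ 0 < (a j).ord f := by
  by_cases hf0 : f = 0
  · rw [hf0]
    exact ⟨fun _ => ⟨zero_mem _, fun _ => Or.inl rfl⟩, fun _ => zero_mem _⟩
  · rw [mem_L_of_ne_zero hf0, mem_L_of_ne_zero hf0]
    constructor
    · intro h
      refine ⟨fun v => ?_, fun j => Or.inr ?_⟩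
      · have h1 := h v
        rw [Finsupp.sub_apply] at h1
        by_cases hv : ∃ j, v = a j
        · obtain ⟨j, rfl⟩ := hv
          rw [hD j, hE1 j] at h1
          rw [hD j]
          omega
        · push Not at hv
          rw [hE0 v hv] at h1
          omega
      · have h1 := h (a j)
        rw [Finsupp.sub_apply, hD j, hE1 j] at h1
        omega
    · rintro ⟨hL, hz⟩ v
      rw [Finsupp.sub_apply]
      by_cases hv : ∃ j, v = a j
      · obtain ⟨j, rfl⟩ := hv
        rw [hD j, hE1 j]
        have := (hz j).resolve_left hf0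
        omega
      · push Not at hv
        rw [hE0 v hv]
        have := hL v
        omega

/-- The common kernel of the evaluations at the points is `L(D - E)` inside `L(D)`. -/
theorem iInf_ker_evL_eq {ev : Place K F → F → K} (hev : IsEval ev) {n : ℕ}
    (D E : Divisor K F) (a : Fin n → Place K F)
    (hD : ∀ j, D (a j) = 0) (hE1 : ∀ j, E (a j) = 1) (hE0 : ∀ v, (∀ j, v ≠ a j) → E v = 0) :
    (⨅ j, LinearMap.ker (evL hev D (a j) (le_of_eq (hD j))) :
        Submodule K ↥(riemannRochSpace D)) =
      Submodule.comap (riemannRochSpace D).subtype (riemannRochSpace (D - E)) := by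
  ext f
  rw [Submodule.mem_iInf, Submodule.mem_comap, Submodule.subtype_apply,
    mem_L_sub_points_iff D E a hD hE1 hE0]
  constructor
  · intro h
    exact ⟨f.2, fun j => (evL_eq_zero_iff hev D (a j) _ f).mp (LinearMap.mem_ker.mp (h j))⟩
  · rintro ⟨_, h⟩ j
    exact LinearMap.mem_ker.mpr ((evL_eq_zero_iff hev D (a j) _ f).mpr (h j))

/-- ... hence its dimension is `l(D - E)`. -/
theorem finrank_iInf_ker_evL {ev : Place K F → F → K} (hev : IsEval ev) {n : ℕ}
    (D E : Divisor K F) (a : Fin n → Place K F)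
    (hD : ∀ j, D (a j) = 0) (hE1 : ∀ j, E (a j) = 1) (hE0 : ∀ v, (∀ j, v ≠ a j) → E v = 0) :
    finrank K ↥(⨅ j, LinearMap.ker (evL hev D (a j) (le_of_eq (hD j))) :
        Submodule K ↥(riemannRochSpace D)) =
      finrank K ↥(riemannRochSpace (D - E)) := by
  rw [iInf_ker_evL_eq hev D E a hD hE1 hE0]
  have hle : riemannRochSpace (D - E) ≤ riemannRochSpace D := fun f hf =>
    ((mem_L_sub_points_iff D E a hD hE1 hE0 f).mp hf).1
  exact (Submodule.comapSubtypeEquivOfLe hle).finrank_eq

/-- The signed `n`-minors of the table of values `[ev (a j) (b i)]`. -/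
noncomputable def detCoeff {n : ℕ} (ev : Place K F → F → K) {D : Divisor K F}
    (a : Fin n → Place K F) (b : Basis (Fin (n + 1)) K ↥(riemannRochSpace D)) :
    Fin (n + 1) → K :=
  fun i => (-1 : K) ^ (i : ℕ) *
    Matrix.det (Matrix.of fun (j : Fin n) (i' : Fin n) =>
      ev (a j) ((b (i.succAbove i') : ↥(riemannRochSpace D)) : F))

theorem detCoeff_eq_cof {ev : Place K F → F → K} (hev : IsEval ev) {n : ℕ}
    (D : Divisor K F) (a : Fin n → Place K F) (hD : ∀ j, D (a j) = 0)
    (b : Basis (Fin (n + 1)) K ↥(riemannRochSpace D)) :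
    detCoeff ev a b = cof b (fun j => evL hev D (a j) (le_of_eq (hD j))) := rfl

/-- The determinant section, as a function. -/
theorem coe_sum_cof {ev : Place K F → F → K} (hev : IsEval ev) {n : ℕ}
    (D : Divisor K F) (a : Fin n → Place K F) (hD : ∀ j, D (a j) = 0)
    (b : Basis (Fin (n + 1)) K ↥(riemannRochSpace D)) :
    ((∑ i, cof b (fun j => evL hev D (a j) (le_of_eq (hD j))) i • b i :
        ↥(riemannRochSpace D)) : F) =
      ∑ i, detCoeff ev a b i • ((b i : ↥(riemannRochSpace D)) : F) := by
  rw [Submodule.coe_sum]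
  rfl

/-- **F1b.**  `l(D - E) = 1`: the vector of signed minors is non-zero and the determinant
section `w = ∑ i, detCoeff ev a b i • b i` is a non-zero section of `D - E`. -/
theorem exists_det_section_curve {ev : Place K F → F → K} (hev : IsEval ev) {n : ℕ}
    (D E : Divisor K F) (a : Fin n → Place K F)
    (hD : ∀ j, D (a j) = 0) (hE1 : ∀ j, E (a j) = 1) (hE0 : ∀ v, (∀ j, v ≠ a j) → E v = 0)
    (b : Basis (Fin (n + 1)) K ↥(riemannRochSpace D))
    (h1 : finrank K ↥(riemannRochSpace (D - E)) = 1) :
    detCoeff ev a b ≠ 0 ∧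
      (∑ i, detCoeff ev a b i • ((b i : ↥(riemannRochSpace D)) : F)) ∈
        riemannRochSpace (D - E) ∧
      (∑ i, detCoeff ev a b i • ((b i : ↥(riemannRochSpace D)) : F)) ≠ 0 := by
  have hk : finrank K ↥(⨅ j, LinearMap.ker (evL hev D (a j) (le_of_eq (hD j))) :
      Submodule K ↥(riemannRochSpace D)) = 1 := by
    rw [finrank_iInf_ker_evL hev D E a hD hE1 hE0, h1]
  obtain ⟨hc, hw⟩ := exists_det_section b (fun j => evL hev D (a j) (le_of_eq (hD j))) hk
  refine ⟨hc, ?_, ?_⟩
  · rw [← coe_sum_cof hev D a hD b, mem_L_sub_points_iff D E a hD hE1 hE0]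
    exact ⟨Subtype.property _, fun j => (evL_eq_zero_iff hev D (a j) _ _).mp (hw j)⟩
  · rw [← coe_sum_cof hev D a hD b]
    intro h0
    have h0' : (∑ i, cof b (fun j => evL hev D (a j) (le_of_eq (hD j))) i • b i :
        ↥(riemannRochSpace D)) = 0 := Subtype.ext h0
    apply hc
    funext i
    exact (Fintype.linearIndependent_iff.mp b.linearIndependent) _ h0' i

/-- The value of the determinant section at a further place `q` is the determinant of the
table of values with the row of `q` added on top. -/
theorem ev_det_section {ev : Place K F → F → K} (hev : IsEval ev) {n : ℕ}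
    (D : Divisor K F) (a : Fin n → Place K F) (hD : ∀ j, D (a j) = 0)
    (b : Basis (Fin (n + 1)) K ↥(riemannRochSpace D)) (q : Place K F) (hq : D q ≤ 0) :
    ev q (∑ i, detCoeff ev a b i • ((b i : ↥(riemannRochSpace D)) : F)) =
      Matrix.det (Matrix.of fun (r : Fin (n + 1)) (i : Fin (n + 1)) =>
        ev (Fin.cases (motive := fun _ => Place K F) q a r)
          ((b i : ↥(riemannRochSpace D)) : F)) := by
  rw [← coe_sum_cof hev D a hD b, ← evL_apply hev D q hq, apply_sum_cof]
  congr 1
  ext r i
  refine Fin.cases ?_ (fun j => ?_) r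
  · rfl
  · rfl

/-- **F1b, the case of block F**: `D = M · v₀`, `E = ∑ j, a j` for distinct points
`a j ≠ v₀`. -/
theorem exists_det_section_point {ev : Place K F → F → K} (hev : IsEval ev) {n : ℕ}
    (v₀ : Place K F) (M : ℕ) (a : Fin n → Place K F) (ha : Function.Injective a)
    (ha₀ : ∀ j, a j ≠ v₀)
    (b : Basis (Fin (n + 1)) K ↥(riemannRochSpace ((M : ℤ) • Finsupp.single v₀ (1 : ℤ))))
    (h1 : finrank K ↥(riemannRochSpace
      ((M : ℤ) • Finsupp.single v₀ (1 : ℤ) - ∑ j, Finsupp.single (a j) (1 : ℤ))) = 1) :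
    detCoeff ev a b ≠ 0 ∧
      (∑ i, detCoeff ev a b i •
          ((b i : ↥(riemannRochSpace ((M : ℤ) • Finsupp.single v₀ (1 : ℤ)))) : F)) ∈
        riemannRochSpace
          ((M : ℤ) • Finsupp.single v₀ (1 : ℤ) - ∑ j, Finsupp.single (a j) (1 : ℤ)) ∧
      (∑ i, detCoeff ev a b i •
          ((b i : ↥(riemannRochSpace ((M : ℤ) • Finsupp.single v₀ (1 : ℤ)))) : F)) ≠ 0 := by
  classical
  have hD : ∀ j, ((M : ℤ) • Finsupp.single v₀ (1 : ℤ) : Divisor K F) (a j) = 0 := by
    intro j
    rw [Finsupp.smul_apply, Finsupp.single_eq_of_ne (ha₀ j), smul_zero]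
  have hE1 : ∀ j₀, (∑ j, Finsupp.single (a j) (1 : ℤ) : Divisor K F) (a j₀) = 1 := by
    intro j₀
    rw [Finsupp.finsetSum_apply]
    simp only [Finsupp.single_apply, ha.eq_iff]
    simp
  have hE0 : ∀ v, (∀ j, v ≠ a j) →
      (∑ j, Finsupp.single (a j) (1 : ℤ) : Divisor K F) v = 0 := by
    intro v hv
    rw [Finsupp.finsetSum_apply]
    exact Finset.sum_eq_zero fun j _ => Finsupp.single_eq_of_ne (hv j)
  exact exists_det_section_curve hev _ _ a hD hE1 hE0 b h1

end Fermat.Agent.S17.H.F
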