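import Mathlib
import Fermat.Agent.S17.R.LSpace
import Fermat.Agent.S17.H.A.Abs
import Fermat.Agent.S17.H.Glob.Eval
import Fermat.Agent.S17.H.Glob.PlaceHeight
import Fermat.Agent.S17.H.Glob.Compare
import Fermat.Agent.S17.H.F.Theta
import Fermat.Agent.S17.H.F.DetCurve
import Fermat.Agent.S17.H.F.FineIface
import Fermat.Agent.S17.H.F.FineBound

/-!
# Program MW (S17), strand H, block F, leaf F3: `theta` of the unramified fibres of a function

`F / Qb` a function field of one variable, `v₀` the base place, `t` a function regular off `v₀`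
with a pole of order `n0` at `v₀`.  The fibre of `t` over `c` is the set of zeros of `t - c`;
it is unramified when all these zeros are simple, and then it has `n0` points (`card_fibre`).

* `fibreBound_of_fibre_lower` (abstract in `H`, `Dd`): the comparison
  `n0 * H v ≤ hQ (t(v)) + C₁` off `v₀` and the fibre inequality of leaf D4 give `F.FibreBound`:
  `theta (unramified fibre) ≤ C`.
* `exists_plH_le_hQ`: the comparison for the height `Glob.plH ev φ m0` of a family `φ` of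
  sections of `m0 · v₀` containing `1` and a function of exact pole order `m0` (leaf D1b).
* `fibreBound_plH` : `F.FibreBound t (plH ev φ m0) (plD ev φ)` from the conclusion of the fibre
  inequality of leaf D4 in the shape "all zeros of `t - α`, all simple";
  `fibreBound_plH_of_card` : the same from the shape "`n0` zeros of `t - α`".

(Leaf F2, `FibrePairBound`, is `FibrePair.lean`.)
-/

set_option autoImplicit false

namespace Fermat.Agent.S17.H.F

open AlgebraicCurve Module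
open Fermat.Agent.S17.R Fermat.Agent.S17.H.Glob

section General

variable {K F : Type*} [Field K] [Field F] [Algebra K F]
variable [IsAlgClosed K] [CharZero K] [Algebra.EssFiniteType K F]

/-- The number of points of an unramified fibre of a function regular off `v₀`. -/
theorem card_fibre (htr : Algebra.trdeg K F = 1) {v₀ : Place K F} {t : F}
    (hreg : ∀ v : Place K F, v ≠ v₀ → 0 ≤ v.ord t) (hpole : v₀.ord t < 0) {c : K}
    {Fib : Finset (Place K F)} (hFib : ∀ u : Place K F, u ∈ Fib ↔ 0 < u.ord (t - algebraMap K F c))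
    (hsimple : ∀ u ∈ Fib, u.ord (t - algebraMap K F c) = 1) :
    (Fib.card : ℤ) = -(v₀.ord t) := by
  have hE : Fib = zeroSet K (t - algebraMap K F c) := by
    ext u
    rw [hFib, mem_zeroSet htr]
  rw [hE]
  exact card_zeroSet_sub_const htr hreg hpole c fun u hu => hsimple u ((hFib u).mpr hu)

omit [IsAlgClosed K] [CharZero K] [Algebra.EssFiniteType K F] in
/-- The base place is not in a fibre. -/
theorem base_notMem_fibre {v₀ : Place K F} {t : F} (hpole : v₀.ord t < 0) {c : K}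
    {Fib : Finset (Place K F)}
    (hFib : ∀ u : Place K F, u ∈ Fib ↔ 0 < u.ord (t - algebraMap K F c)) : v₀ ∉ Fib := by
  rw [hFib, ord_sub_const_of_neg v₀ hpole c]
  omega

end General

section Heights

local notation "Qb" => AlgebraicClosure ℚ

variable {F : Type*} [Field F] [Algebra Qb F] [Algebra.EssFiniteType Qb F]

omit [Algebra.EssFiniteType Qb F] in
/-- The value of `t` at a point of the fibre over `c` is `c`. -/
theorem ev_eq_of_mem_fibre {ev : Place Qb F → F → Qb} (hev : IsEval ev) {v₀ : Place Qb F} {t : F}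
    (hreg : ∀ v : Place Qb F, v ≠ v₀ → 0 ≤ v.ord t) (hpole : v₀.ord t < 0) {c : Qb}
    {u : Place Qb F} (hu : 0 < u.ord (t - algebraMap Qb F c)) : ev u t = c := by
  have hu₀ : u ≠ v₀ := by
    intro h
    rw [h, ord_sub_const_of_neg v₀ hpole c] at hu
    omega
  have ht0 : t ≠ 0 := by
    rintro rfl
    simp at hpole
  have hmem : t ∈ u.toValuationSubring :=
    (Fermat.Agent.S24.FF.ord_nonneg_iff u ht0).mp (hreg u hu₀)
  exact hev.eq_of_valuation_lt hmem ((valuation_lt_one_iff u _).mpr (Or.inr hu))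

open Classical in
/-- **F3, abstract.**  The comparison `n0 * H v ≤ hQ (t(v)) + C₁` off `v₀` and the fibre
inequality of leaf D4 (for the fibres given as "all zeros of `t - α`, all simple") give the
bound on `theta` of an unramified fibre. -/
theorem fibreBound_of_fibre_lower (htr : Algebra.trdeg Qb F = 1) (v₀ : Place Qb F)
    {ev : Place Qb F → F → Qb} (hev : IsEval ev) {t : F}
    (hreg : ∀ v : Place Qb F, v ≠ v₀ → 0 ≤ v.ord t) {n0 : ℕ} (hn0 : 0 < n0)
    (hord : v₀.ord t = -(n0 : ℤ)) (H : Place Qb F → ℝ) (Dd : Place Qb F → Place Qb F → ℝ)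
    {C₁ : ℝ} (hcmp : ∀ v : Place Qb F, v ≠ v₀ → (n0 : ℝ) * H v ≤ hQ (ev v t) + C₁)
    {C₂ : ℝ} (hfib : ∀ (α : Qb) (Fib : Finset (Place Qb F)),
      (∀ u : Place Qb F, u ∈ Fib ↔ 0 < u.ord (t - algebraMap Qb F α)) →
      (∀ u ∈ Fib, u.ord (t - algebraMap Qb F α) = 1) →
      (2 * (n0 : ℝ) + 2 * (gR Qb F : ℝ) - 2) * hQ α - C₂ ≤ offDiag Dd Fib) :
    FibreBound t H Dd := by
  have hpole : v₀.ord t < 0 := by
    rw [hord]
    have : (0 : ℤ) < n0 := by exact_mod_cast hn0
    omega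
  refine ⟨((n0 : ℝ) + (gR Qb F : ℕ) - 1) * C₁ + C₂ / 2, ?_⟩
  intro c Fib hFib hsimple
  have hcard : Fib.card = n0 := by
    have := card_fibre htr hreg hpole hFib hsimple
    omega
  refine theta_fibre_le hn0 hcard (hQ c) C₁ C₂ ?_ ?_
  · intro a ha
    have ha₀ : a ≠ v₀ := fun h => base_notMem_fibre hpole hFib (h ▸ ha)
    have h1 := hcmp a ha₀
    rwa [ev_eq_of_mem_fibre hev hreg hpole ((hFib a).mp ha)] at h1
  · exact hfib c Fib hFib hsimple

/-- The comparison of the normalised height of a place with the height of the value of `t`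
(leaf D1b for the families `φ` and `(t, 1)`). -/
theorem exists_plH_le_hQ (htr : Algebra.trdeg Qb F = 1) (v₀ : Place Qb F)
    {ev : Place Qb F → F → Qb} (hev : IsEval ev) {t : F}
    (hreg : ∀ v : Place Qb F, v ≠ v₀ → 0 ≤ v.ord t) {n0 : ℕ} (hn0 : 0 < n0)
    (hord : v₀.ord t = -(n0 : ℤ)) {m0 r : ℕ} (hm0 : 0 < m0) (φ : Fin r → F)
    (hφ : ∀ i, φ i ∈ riemannRochSpace ((m0 : ℤ) • Finsupp.single v₀ (1 : ℤ)))
    (hφ1 : ∃ i, φ i = 1) (hφtop : ∃ i, v₀.ord (φ i) = -(m0 : ℤ)) :
    ∃ C : ℝ, ∀ v : Place Qb F, v ≠ v₀ →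
      |(n0 : ℝ) * plH ev φ m0 v - hQ (ev v t)| ≤ C := by
  have ht0 : t ≠ 0 := by
    rintro rfl
    simp at hord
    omega
  have hDv : ∀ v : Place Qb F, v ≠ v₀ →
      ((m0 : ℤ) • Finsupp.single v₀ (1 : ℤ) : Divisor Qb F) v ≤ 0 := fun v hv => by
    rw [Finsupp.smul_apply, Finsupp.single_eq_of_ne hv, smul_zero]
  have hα : ∀ i, RegOff v₀ (φ i) := fun i v hv =>
    mem_valuationSubring_of_mem_L (hDv v hv) (hφ i)
  have hαa : ∀ i, -(m0 : ℤ) ≤ v₀.ord (φ i) := by
    intro i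
    by_cases h0 : φ i = 0
    · rw [h0]
      simp
    · have h := (mem_L_of_ne_zero h0).mp (hφ i) v₀
      rwa [Finsupp.smul_apply, Finsupp.single_eq_same, smul_eq_mul, mul_one] at h
  have hβ : ∀ j, RegOff v₀ ((![t, 1] : Fin 2 → F) j) := by
    intro j
    fin_cases j
    · intro v hv
      exact (Fermat.Agent.S24.FF.ord_nonneg_iff v ht0).mp (hreg v hv)
    · exact RegOff.one
  have hβb : ∀ j, -(n0 : ℤ) ≤ v₀.ord ((![t, 1] : Fin 2 → F) j) := by
    intro j
    fin_cases j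
    · simp [hord]
    · simp
  obtain ⟨C, hC⟩ := exists_compare htr v₀ hev φ (![t, 1] : Fin 2 → F) hα hαa hφ1 hφtop hm0
    hβ hβb ⟨1, rfl⟩ ⟨0, hord⟩ hn0
  refine ⟨C / m0, fun v hv => ?_⟩
  have h1 := hC v hv
  have h2 : (fun j => ev v ((![t, 1] : Fin 2 → F) j)) = ![ev v t, 1] := by
    funext j
    fin_cases j
    · rfl
    · simp [hev.map_one]
  rw [h2] at h1
  have hm0' : (0 : ℝ) < m0 := by exact_mod_cast hm0
  have h3 : (n0 : ℝ) * plH ev φ m0 v - hQ (ev v t) =
      ((n0 : ℝ) * hT (fun i => ev v (φ i)) - (m0 : ℝ) * hT ![ev v t, 1]) / m0 := by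
    unfold plH hQ valVec
    field_simp
  rw [h3, abs_div, abs_of_pos hm0']
  exact div_le_div_of_nonneg_right h1 hm0'.le

open Classical in
/-- **F3.**  The fibre inequality of leaf D4 for the pair term `plD ev φ` gives the bound on
`theta` of the unramified fibres, for the height `plH ev φ m0`. -/
theorem fibreBound_plH (htr : Algebra.trdeg Qb F = 1) (v₀ : Place Qb F)
    {ev : Place Qb F → F → Qb} (hev : IsEval ev) {t : F}
    (hreg : ∀ v : Place Qb F, v ≠ v₀ → 0 ≤ v.ord t) {n0 : ℕ} (hn0 : 0 < n0)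
    (hord : v₀.ord t = -(n0 : ℤ)) {m0 r : ℕ} (hm0 : 0 < m0) (φ : Fin r → F)
    (hφ : ∀ i, φ i ∈ riemannRochSpace ((m0 : ℤ) • Finsupp.single v₀ (1 : ℤ)))
    (hφ1 : ∃ i, φ i = 1) (hφtop : ∃ i, v₀.ord (φ i) = -(m0 : ℤ))
    (hfib : ∃ C : ℝ, ∀ (α : Qb) (Fib : Finset (Place Qb F)),
      (∀ u : Place Qb F, u ∈ Fib ↔ 0 < u.ord (t - algebraMap Qb F α)) →
      (∀ u ∈ Fib, u.ord (t - algebraMap Qb F α) = 1) →
      (2 * (n0 : ℝ) + 2 * (gR Qb F : ℝ) - 2) * hQ α - C ≤ offDiag (plD ev φ) Fib) :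
    FibreBound t (plH ev φ m0) (plD ev φ) := by
  obtain ⟨C₁, hC₁⟩ := exists_plH_le_hQ htr v₀ hev hreg hn0 hord hm0 φ hφ hφ1 hφtop
  obtain ⟨C₂, hC₂⟩ := hfib
  exact fibreBound_of_fibre_lower htr v₀ hev hreg hn0 hord _ _
    (fun v hv => by
      have := (abs_le.mp (hC₁ v hv)).2
      linarith) hC₂

open Classical in
/-- **F3**, from the fibre inequality of leaf D4 stated for the sets of `n0` zeros of
`t - α`. -/
theorem fibreBound_plH_of_card (htr : Algebra.trdeg Qb F = 1) (v₀ : Place Qb F)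
    {ev : Place Qb F → F → Qb} (hev : IsEval ev) {t : F}
    (hreg : ∀ v : Place Qb F, v ≠ v₀ → 0 ≤ v.ord t) {n0 : ℕ} (hn0 : 0 < n0)
    (hord : v₀.ord t = -(n0 : ℤ)) {m0 r : ℕ} (hm0 : 0 < m0) (φ : Fin r → F)
    (hφ : ∀ i, φ i ∈ riemannRochSpace ((m0 : ℤ) • Finsupp.single v₀ (1 : ℤ)))
    (hφ1 : ∃ i, φ i = 1) (hφtop : ∃ i, v₀.ord (φ i) = -(m0 : ℤ))
    (hfib : ∃ C : ℝ, ∀ (α : Qb) (A : Finset (Place Qb F)), A.card = n0 →
      (∀ v ∈ A, 0 < v.ord (t - algebraMap Qb F α)) →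
      (2 * (n0 : ℝ) + 2 * (gR Qb F : ℝ) - 2) * hQ α - C ≤ offDiag (plD ev φ) A) :
    FibreBound t (plH ev φ m0) (plD ev φ) := by
  have hpole : v₀.ord t < 0 := by
    rw [hord]
    have : (0 : ℤ) < n0 := by exact_mod_cast hn0
    omega
  obtain ⟨C, hC⟩ := hfib
  refine fibreBound_plH htr v₀ hev hreg hn0 hord hm0 φ hφ hφ1 hφtop ⟨C, ?_⟩
  intro α Fib hFib hsimple
  have hcard : Fib.card = n0 := by
    have := card_fibre htr hreg hpole hFib hsimple
    omega
  exact hC α Fib hcard fun v hv => (hFib v).mp hv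

end Heights

end Fermat.Agent.S17.H.F
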