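import Mathlib
import Fermat.Agent.S17.R.LSpace
import Fermat.Agent.S17.R.NonSpecialStep
import Fermat.Agent.S17.H.A.LocalGlobal
import Fermat.Agent.S17.H.Glob.Eval
import Fermat.Agent.S17.H.F.Theta
import Fermat.Agent.S17.H.F.DetCurve

/-!
# Program MW (S17), strand H, block F, leaf F1 (core): the height of the residual divisor

`F / Qb` a function field of one variable, `v₀` the base place, `A` a multiplicity-free divisor
of `n` places off `v₀`, `M = n + g`.  If `l(M v₀ - A) = 1`, the determinant section
`w_A = ∑ i, c i • ψ i` (`ψ` a basis of `L(M v₀)`, `c` the signed `n`-minors of the table of values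
`[ψ i (a j)]`) spans `L(M v₀ - A)`, and `div w_A = E' + A - M v₀` with `E' ≥ 0` of degree `g`.

`detHeight_le_of_chow_vdm`: from

* `hchow` (the literal shape of leaf D1, Chow): the height of the coefficient vector of a section
  of `L(M v₀)` is the total height of its zeros off `v₀`, up to `C₁`;
* `hvdm` (the literal shape of leaf D3, global Vandermonde): the height of the vector of
  `n`-minors at `n` distinct places is at most `M * ∑ H - ∑_{i<j} D + C₂`;

the total height of `E'` is at most `theta g H D A + C₁ + C₂ + g * |H v₀|`.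

The two hypotheses are stated for ONE basis `b` of `L(M v₀)`, an arbitrary value function `ev`
(`Glob.IsEval`), an arbitrary point height `H` and an arbitrary symmetric kernel `D`; the
constant of the conclusion does not depend on `A`.
-/

set_option autoImplicit false

namespace Fermat.Agent.S17.H.F

open AlgebraicCurve
open Fermat.Agent.S17.R Fermat.Agent.S17.H.Glob Fermat.Agent.S24.FF

/-! ### Signs do not change the height -/

section Sign

local notation "Qb" => AlgebraicClosure ℚ

/-- Multiplying the coordinates by signs does not change the height. -/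
theorem hT_sign_mul {ι : Type*} [Finite ι] (s : ι → ℕ) (x : ι → Qb) :
    hT (fun i => (-1 : Qb) ^ s i * x i) = hT x := by
  have key : ∀ (s : ι → ℕ) (x : ι → Qb), x ≠ 0 →
      hT (fun i => (-1 : Qb) ^ s i * x i) ≤ hT x := by
    intro s x hx
    have h := hT_le_of_local (ι := ι) (ι' := ι) (m := 0) (fun j => Fin.elim0 j) (c := 1) le_rfl
      0 1 x (fun i => (-1 : Qb) ^ s i * x i) hx (by
        intro A _ f g γ hf hg _ v
        have hgf : ∀ i, g i = (-1 : A) ^ s i * f i := by
          intro i
          apply Subtype.ext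
          rw [hg i]
          push_cast
          rw [hf i]
        have hv : ∀ i, v (g i) = v (f i) := by
          intro i
          rw [hgf i, map_mul, map_pow, AbsoluteValue.map_neg, map_one, one_pow, one_mul]
        have hsup : (⨆ b, v (g b)) = ⨆ a, v (f a) := by
          simp_rw [hv]
        constructor
        · rw [hsup]
          simp
        · intro _
          rw [hsup]
          simp)
    simpa using h
  rcases eq_or_ne x 0 with rfl | hx
  · have h0 : (fun i => (-1 : Qb) ^ s i * (0 : ι → Qb) i) = 0 := by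
      funext i
      simp
    rw [h0]
  · refine le_antisymm (key s x hx) ?_
    have hx' : (fun i => (-1 : Qb) ^ s i * x i) ≠ 0 := by
      intro h
      apply hx
      funext i
      have h1 := congrFun h i
      simp only [Pi.zero_apply, mul_eq_zero] at h1
      rcases h1 with h1 | h1
      · exact absurd h1 (pow_ne_zero _ (neg_ne_zero.mpr one_ne_zero))
      · exact h1
    have h2 := key s (fun i => (-1 : Qb) ^ s i * x i) hx'
    have h3 : (fun i => (-1 : Qb) ^ s i * ((-1 : Qb) ^ s i * x i)) = x := by
      funext i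
      rw [← mul_assoc, ← pow_add, ← two_mul, pow_mul]
      simp
    rwa [h3] at h2

end Sign

/-! ### Sums over the pairs `i < j` -/

/-- A sum over the pairs `i < j` of a symmetric function is half the sum over the ordered
pairs `i ≠ j`. -/
theorem sum_Ioi_eq_half {n : ℕ} (d : Fin n → Fin n → ℝ) (hd : ∀ i j, d i j = d j i) :
    ∑ i, ∑ j ∈ Finset.Ioi i, d i j = (∑ i, ∑ j, if i = j then 0 else d i j) / 2 := by
  have hI : ∀ i : Fin n, ∑ j ∈ Finset.Ioi i, d i j = ∑ j, if i < j then d i j else 0 := by
    intro i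
    rw [← Finset.sum_filter, Finset.filter_lt_eq_Ioi]
  have h1 : ∀ i j : Fin n, (if i = j then 0 else d i j) =
      (if i < j then d i j else 0) + (if j < i then d j i else 0) := by
    intro i j
    rcases lt_trichotomy i j with h | h | h
    · rw [if_neg h.ne, if_pos h, if_neg (not_lt.mpr h.le), add_zero]
    · subst h
      simp
    · rw [if_neg h.ne', if_neg (not_lt.mpr h.le), if_pos h, zero_add, hd]
  have h2 : (∑ i, ∑ j, if i = j then 0 else d i j) =
      (∑ i, ∑ j, if i < j then d i j else 0) + ∑ i, ∑ j, if j < i then d j i else 0 := by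
    rw [← Finset.sum_add_distrib]
    refine Finset.sum_congr rfl fun i _ => ?_
    rw [← Finset.sum_add_distrib]
    exact Finset.sum_congr rfl fun j _ => h1 i j
  have h3 : (∑ i : Fin n, ∑ j : Fin n, if j < i then d j i else 0) =
      ∑ i, ∑ j, if i < j then d i j else 0 := Finset.sum_comm
  rw [h2, h3]
  simp_rw [hI]
  ring

/-! ### Minors and the divisor of a finite set of places -/

section General

variable {K F : Type*} [Field K] [Field F] [Algebra K F]

/-- The unsigned `n`-minors of the table of values `[ev (a j) (ψ i)]` (rows: the places `a j`,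
columns: the members of `ψ` other than `ψ i`). -/
noncomputable def minorVec {n : ℕ} (ev : Place K F → F → K) (ψ : Fin (n + 1) → F)
    (a : Fin n → Place K F) : Fin (n + 1) → K :=
  fun i => Matrix.det (Matrix.of fun (j : Fin n) (i' : Fin n) => ev (a j) (ψ (i.succAbove i')))

/-- The multiplicity of a place in the divisor of a finite set of places. -/
theorem ptsDiv_apply [DecidableEq (Place K F)] (A : Finset (Place K F)) (v : Place K F) :
    (∑ P ∈ A, Finsupp.single P (1 : ℤ) : Divisor K F) v = if v ∈ A then 1 else 0 := by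
  rw [Finsupp.finsetSum_apply]
  simp only [Finsupp.single_apply]
  rw [Finset.sum_ite_eq' A v (fun _ => (1 : ℤ))]

end General

/-! ### The height of the residual divisor -/

section Heights

local notation "Qb" => AlgebraicClosure ℚ

variable {F : Type*} [Field F] [Algebra Qb F] [Algebra.EssFiniteType Qb F]

omit [Algebra.EssFiniteType Qb F] in
/-- The vector of signed minors of leaf F1b and the vector of unsigned minors have the same
height. -/
theorem hT_detCoeff {n : ℕ} (ev : Place Qb F → F → Qb) {D : Divisor Qb F}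
    (a : Fin n → Place Qb F) (b : Module.Basis (Fin (n + 1)) Qb ↥(riemannRochSpace D)) :
    hT (detCoeff ev a b) = hT (minorVec ev (fun i => (b i : F)) a) :=
  hT_sign_mul (fun i : Fin (n + 1) => (i : ℕ)) (minorVec ev (fun i => (b i : F)) a)

/-- **F1, core.**  From Chow (`hchow`) for the sections of `L(M v₀)` in the basis `b` and the
global Vandermonde bound (`hvdm`) for the `n`-minors of the table of values of `b`: if `A` is a
set of `n` places off `v₀`, `E' ≥ 0` with `l(E') = 1` and `E' + A - M v₀` principal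
(`M = n + g`), then `H(E') ≤ theta g H D A + C₁ + C₂ + g * |H v₀|`. -/
theorem detHeight_le_of_chow_vdm [DecidableEq (Place Qb F)] (htr : Algebra.trdeg Qb F = 1)
    (v₀ : Place Qb F) {ev : Place Qb F → F → Qb} (hev : IsEval ev) (H : Place Qb F → ℝ)
    (D : Place Qb F → Place Qb F → ℝ) (hD : ∀ P Q, D P Q = D Q P)
    {n g M : ℕ} (hM : M = n + g)
    (b : Module.Basis (Fin (n + 1)) Qb
      ↥(riemannRochSpace ((M : ℤ) • Finsupp.single v₀ (1 : ℤ))))
    {C₁ C₂ : ℝ}
    (hchow : ∀ c : Fin (n + 1) → Qb, c ≠ 0 →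
      |(∑ᶠ v ∈ {v : Place Qb F | v ≠ v₀},
          ((v.ord (∑ i, c i • (b i : F)) : ℤ) : ℝ) * H v) - hT c| ≤ C₁)
    (hvdm : ∀ a : Fin n → Place Qb F, Function.Injective a → (∀ j, a j ≠ v₀) →
      minorVec ev (fun i => (b i : F)) a ≠ 0 →
      hT (minorVec ev (fun i => (b i : F)) a) ≤
        (M : ℝ) * ∑ j, H (a j) - ∑ i, ∑ j ∈ Finset.Ioi i, D (a i) (a j) + C₂)
    (A : Finset (Place Qb F)) (E' : Divisor Qb F) (hA : A.card = n) (hv₀ : v₀ ∉ A)
    (hE : 0 ≤ E') (hl : Module.finrank Qb ↥(riemannRochSpace E') = 1)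
    (hpr : E' + ∑ P ∈ A, Finsupp.single P (1 : ℤ) - (M : ℤ) • Finsupp.single v₀ (1 : ℤ) ∈
      Divisor.principal (K := Qb) (F := F)) :
    E'.sum (fun P m => (m : ℝ) * H P) ≤ theta g H D A + (C₁ + C₂ + g * |H v₀|) := by
  -- an enumeration of `A`
  let e : Fin n ≃ A := (A.equivFinOfCardEq hA).symm
  let a : Fin n → Place Qb F := fun j => (e j : Place Qb F)
  have ha_inj : Function.Injective a := fun i j h => e.injective (Subtype.ext h)
  have ha_mem : ∀ j, a j ∈ A := fun j => (e j).2
  have ha₀ : ∀ j, a j ≠ v₀ := fun j h => hv₀ (h ▸ ha_mem j)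
  have hsumA : ∀ f : Place Qb F → ℝ, ∑ j, f (a j) = ∑ P ∈ A, f P := by
    intro f
    rw [← Finset.sum_coe_sort A f]
    exact Equiv.sum_comp e (fun x : A => f x)
  -- the divisors
  have hDM : ∀ v : Place Qb F, v ≠ v₀ →
      ((M : ℤ) • Finsupp.single v₀ (1 : ℤ) : Divisor Qb F) v = 0 := fun v hv => by
    rw [Finsupp.smul_apply, Finsupp.single_eq_of_ne hv, smul_zero]
  set DA : Divisor Qb F := ∑ P ∈ A, Finsupp.single P (1 : ℤ) with hDA
  obtain ⟨u, hu0, hu⟩ := hpr
  have hE0 : ∀ v : Place Qb F, 0 ≤ E' v := fun v => by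
    have := Finsupp.le_def.mp hE v
    simpa using this
  have huL : u ∈ riemannRochSpace ((M : ℤ) • Finsupp.single v₀ (1 : ℤ) - DA) := by
    rw [mem_L_of_ne_zero hu0]
    intro v
    rw [← hu v]
    simp only [Finsupp.sub_apply, Finsupp.add_apply]
    have := hE0 v
    omega
  have hprin : E' - ((M : ℤ) • Finsupp.single v₀ (1 : ℤ) - DA) ∈
      Divisor.principal (K := Qb) (F := F) := by
    have h1 : E' - ((M : ℤ) • Finsupp.single v₀ (1 : ℤ) - DA) =
        E' + DA - (M : ℤ) • Finsupp.single v₀ (1 : ℤ) := by abel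
    rw [h1]
    exact ⟨u, hu0, hu⟩
  have hfr : Module.finrank Qb
      ↥(riemannRochSpace ((M : ℤ) • Finsupp.single v₀ (1 : ℤ) - DA)) = 1 := by
    rw [← finrank_L_eq_of_principal htr hprin]
    exact hl
  -- the determinant section (leaf F1b)
  have hDA' : (∑ j, Finsupp.single (a j) (1 : ℤ) : Divisor Qb F) = DA := by
    rw [hDA, ← Finset.sum_coe_sort A (fun P => Finsupp.single P (1 : ℤ))]
    exact Equiv.sum_comp e (fun x : A => Finsupp.single (x : Place Qb F) (1 : ℤ))
  obtain ⟨hcof, hwL, hw0⟩ := exists_det_section_point hev v₀ M a ha_inj ha₀ b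
    (by rw [hDA']; exact hfr)
  rw [hDA'] at hwL
  set c : Fin (n + 1) → Qb := detCoeff ev a b with hc_def
  set w : F := ∑ i, c i • (b i : F) with hw_def
  obtain ⟨lam, hlam⟩ : ∃ lam : Qb, lam • u = w := by
    have hne : (⟨u, huL⟩ : ↥(riemannRochSpace ((M : ℤ) • Finsupp.single v₀ (1 : ℤ) - DA))) ≠ 0 := fun h0 =>
      hu0 (congrArg Subtype.val h0)
    obtain ⟨lam, h⟩ := (finrank_eq_one_iff_of_nonzero' _ hne).mp hfr ⟨w, hwL⟩
    exact ⟨lam, congrArg Subtype.val h⟩
  have hlam0 : lam ≠ 0 := by
    rintro rfl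
    rw [zero_smul] at hlam
    exact hw0 hlam.symm
  have hord : ∀ v : Place Qb F, v ≠ v₀ →
      v.ord w = E' v + if v ∈ A then 1 else 0 := by
    intro v hv
    rw [← hlam, Algebra.smul_def, v.ord_mul ((map_ne_zero _).mpr hlam0) hu0, ord_algebraMap,
      zero_add, ← hu v, Finsupp.sub_apply, Finsupp.add_apply, hDA, ptsDiv_apply, hDM v hv,
      sub_zero]
  -- the sum over the zeros of `w` off `v₀`
  have hfin : (∑ᶠ v ∈ {v : Place Qb F | v ≠ v₀}, ((v.ord w : ℤ) : ℝ) * H v) =
      HS H A + (E'.sum (fun P m => (m : ℝ) * H P) - (E' v₀ : ℝ) * H v₀) := by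
    set S : Finset (Place Qb F) := insert v₀ (A ∪ E'.support) with hS
    have hsub : {v : Place Qb F | v ≠ v₀} ∩
        Function.support (fun v : Place Qb F => ((v.ord w : ℤ) : ℝ) * H v) ⊆
          ((S.erase v₀ : Finset (Place Qb F)) : Set (Place Qb F)) := by
      rintro v ⟨hv, hsupp⟩
      have hv' : v ≠ v₀ := hv
      rw [Function.mem_support] at hsupp
      rw [Finset.mem_coe, Finset.mem_erase]
      refine ⟨hv', ?_⟩
      rw [hS, Finset.mem_insert, Finset.mem_union]
      right
      by_contra hcon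
      push Not at hcon
      apply hsupp
      rw [hord v hv', if_neg hcon.1, Finsupp.notMem_support_iff.mp hcon.2]
      simp
    have hsub2 : ((S.erase v₀ : Finset (Place Qb F)) : Set (Place Qb F)) ⊆
        {v : Place Qb F | v ≠ v₀} := by
      intro v hv
      exact (Finset.mem_erase.mp (Finset.mem_coe.mp hv)).1
    rw [finsum_mem_eq_sum_of_subset _ hsub hsub2]
    have h1 : ∑ v ∈ S.erase v₀, ((v.ord w : ℤ) : ℝ) * H v =
        ∑ v ∈ S.erase v₀, ((E' v : ℝ) * H v + if v ∈ A then H v else 0) := by
      refine Finset.sum_congr rfl fun v hv => ?_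
      rw [hord v (Finset.mem_erase.mp hv).1]
      split_ifs <;> push_cast <;> ring
    rw [h1, Finset.sum_add_distrib, Finset.sum_ite_mem]
    have h2 : S.erase v₀ ∩ A = A := by
      ext v
      rw [Finset.mem_inter, Finset.mem_erase, hS, Finset.mem_insert, Finset.mem_union]
      constructor
      · exact fun h => h.2
      · exact fun h => ⟨⟨fun h' => hv₀ (h' ▸ h), Or.inr (Or.inl h)⟩, h⟩
    have h3 : ∑ v ∈ S.erase v₀, (E' v : ℝ) * H v =
        E'.sum (fun P m => (m : ℝ) * H P) - (E' v₀ : ℝ) * H v₀ := by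
      rw [Finset.sum_erase_eq_sub (Finset.mem_insert_self v₀ _)]
      congr 1
      rw [Finsupp.sum_of_support_subset E' (s := S) (by
        intro v hv
        rw [hS, Finset.mem_insert, Finset.mem_union]
        exact Or.inr (Or.inr hv)) (fun P m => (m : ℝ) * H P) (fun v _ => by simp)]
    rw [h2, h3]
    unfold HS
    ring
  -- Chow for the determinant section
  have hch := hchow c hcof
  rw [← hw_def, hfin] at hch
  -- the coefficient vector is the vector of signed minors
  have hTc : hT c = hT (minorVec ev (fun i => (b i : F)) a) := hT_detCoeff ev a b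
  have hmv : minorVec ev (fun i => (b i : F)) a ≠ 0 := by
    intro h0
    apply hcof
    funext i
    have h1 : c i = (-1 : Qb) ^ (i : ℕ) * minorVec ev (fun i => (b i : F)) a i := rfl
    rw [h1, h0]
    simp
  have hvd := hvdm a ha_inj ha₀ hmv
  -- the pair sum
  have hoff : ∑ i, ∑ j ∈ Finset.Ioi i, D (a i) (a j) = offDiag D A / 2 := by
    rw [sum_Ioi_eq_half (fun i j => D (a i) (a j)) (fun i j => hD _ _)]
    congr 1
    unfold offDiag
    rw [← hsumA (fun P => ∑ Q ∈ A, if P = Q then 0 else D P Q)]
    refine Finset.sum_congr rfl fun i _ => ?_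
    rw [← hsumA (fun Q => if a i = Q then 0 else D (a i) Q)]
    refine Finset.sum_congr rfl fun j _ => ?_
    by_cases hij : i = j
    · rw [if_pos hij, if_pos (congrArg a hij)]
    · rw [if_neg hij, if_neg (fun h => hij (ha_inj h))]
  rw [hoff, hsumA H] at hvd
  -- the multiplicity of `v₀` in `E'`
  have hdegE : Divisor.degree E' = g := by
    have h0 : Divisor.degree (E' + DA - (M : ℤ) • Finsupp.single v₀ (1 : ℤ)) = 0 := degree_eq_zero_of_ord htr hu0 _ hu
    rw [map_sub, map_add, hDA, NonSpecialStep.degree_sum_single htr, map_zsmul,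
      NonSpecialStep.degree_single_one htr, hA, hM] at h0
    push_cast at h0
    simp only [smul_eq_mul, mul_one] at h0
    linarith
  have hEv₀ : E' v₀ ≤ g := by
    rw [← hdegE, NonSpecialStep.degree_eq_sum_support htr E']
    by_cases hmem : v₀ ∈ E'.support
    · exact Finset.single_le_sum (f := fun v => E' v) (fun v _ => hE0 v) hmem
    · rw [Finsupp.notMem_support_iff.mp hmem]
      exact Finset.sum_nonneg fun v _ => hE0 v
  have hEv₀' : (E' v₀ : ℝ) * H v₀ ≤ g * |H v₀| := by
    have h0 : (0 : ℝ) ≤ E' v₀ := by exact_mod_cast hE0 v₀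
    have h1 : (E' v₀ : ℝ) ≤ g := by exact_mod_cast hEv₀
    calc (E' v₀ : ℝ) * H v₀ ≤ (E' v₀ : ℝ) * |H v₀| :=
          mul_le_mul_of_nonneg_left (le_abs_self _) h0
      _ ≤ g * |H v₀| := mul_le_mul_of_nonneg_right h1 (abs_nonneg _)
  -- the arithmetic
  have hch' := (abs_le.mp hch).2
  rw [hTc] at hch'
  have hMr : (M : ℝ) = (n : ℝ) + g := by
    rw [hM]
    push_cast
    ring
  unfold theta
  unfold HS at hch' ⊢
  rw [hA]
  rw [hMr] at hvd
  nlinarith [hch', hvd, hEv₀']

end Heights

end Fermat.Agent.S17.H.F
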