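import Mathlib
import Fermat.Agent.S17.R.LSpace
import Fermat.Agent.S17.H.F.Theta
import Fermat.Agent.S17.H.F.FineIface

/-!
# Program MW (S17), strand H, block F: adapters into the interface of leaf F4

`residualBound_of_core` : the interface `ResidualBound v₀ H Dd` of F4 (`FineIface.lean`) from
the conclusion shape of the F1 core (`DetHeightCore.detHeight_le_of_chow_vdm`): for `n ≥ n₁`,
a set `A` of `n` places off `v₀` and `E' ≥ 0` with `l(E') = 1` and
`E' + A - (n + g) v₀` principal, `H(E') ≤ theta A + C`.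
-/

set_option autoImplicit false

namespace Fermat.Agent.S17.H.F

open AlgebraicCurve Module
open Fermat.Agent.S17.R

variable {K F : Type*} [Field K] [Field F] [Algebra K F]
variable [IsAlgClosed K] [CharZero K] [Algebra.EssFiniteType K F]

open Classical in
/-- The interface `ResidualBound` of F4 from the conclusion shape of the F1 core. -/
theorem residualBound_of_core (htr : Algebra.trdeg K F = 1) (v₀ : Place K F)
    (H : Place K F → ℝ) (Dd : Place K F → Place K F → ℝ)
    (hcore : ∃ n₁ : ℕ, ∀ n : ℕ, n₁ ≤ n → ∃ C : ℝ,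
      ∀ (A : Finset (Place K F)) (E' : Divisor K F), A.card = n → v₀ ∉ A → 0 ≤ E' →
        finrank K ↥(riemannRochSpace E') = 1 →
        E' + ∑ P ∈ A, Finsupp.single P (1 : ℤ)
            - ((n + gR K F : ℕ) : ℤ) • Finsupp.single v₀ (1 : ℤ) ∈
          Divisor.principal (K := K) (F := F) →
        (E'.sum fun P m => (m : ℝ) * H P) ≤ theta (gR K F) H Dd A + C) :
    ResidualBound v₀ H Dd := by
  obtain ⟨n₁, h⟩ := hcore
  refine ⟨n₁, fun n hn => ?_⟩
  obtain ⟨C, hC⟩ := h n hn
  refine ⟨C, fun A E w hA hv₀ hE _ hw0 hw hfin => ?_⟩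
  have hpr : E + ∑ P ∈ A, Finsupp.single P (1 : ℤ)
      - ((n + gR K F : ℕ) : ℤ) • Finsupp.single v₀ (1 : ℤ) ∈
        Divisor.principal (K := K) (F := F) := by
    refine ⟨w, hw0, fun v => ?_⟩
    rw [hw v]
    congr 1
    abel
  have hpr' : E - (((n + gR K F : ℕ) : ℤ) • Finsupp.single v₀ (1 : ℤ)
      - ∑ a ∈ A, Finsupp.single a (1 : ℤ)) ∈ Divisor.principal (K := K) (F := F) := by
    have e : E - (((n + gR K F : ℕ) : ℤ) • Finsupp.single v₀ (1 : ℤ)
        - ∑ a ∈ A, Finsupp.single a (1 : ℤ)) =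
        E + ∑ P ∈ A, Finsupp.single P (1 : ℤ)
          - ((n + gR K F : ℕ) : ℤ) • Finsupp.single v₀ (1 : ℤ) := by
      abel
    rw [e]
    exact hpr
  have hl : finrank K ↥(riemannRochSpace E) = 1 := by
    rw [finrank_L_eq_of_principal htr hpr', hfin]
  exact hC A E hA hv₀ hE hl hpr

end Fermat.Agent.S17.H.F
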