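import Mathlib
import Fermat.Agent.S17.R.LStep
import Fermat.Agent.S17.R.PoleOrder
import Fermat.Agent.S17.H.Pairing.OfGlob
import Fermat.Agent.S17.H.Glob.PlaceHeight
import Fermat.Agent.S17.H.F.DetHeightCore
import Fermat.Agent.S17.H.F.FineAdapters

/-!
# Program MW (S17), strand H, block F, leaf F1: the residual bound from Chow and Vandermonde

`residualBound_of_chow_vdm` : the interface `ResidualBound v₀ H D` of leaf F4 from

* `hchow` : the conclusion of leaf D1 (Chow) for every linearly independent family in some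
  `L(M v₀)`, with the point height `H` inside the sum;
* `hvdm` : the global Vandermonde bound (leaf D3) for the `n`-minors of the table of values of
  every linearly independent family of `n + 1` sections of `L(M v₀)`:
  `hT (minors) ≤ M * ∑ H - ∑_{i<j} D + C`.

Proof: for `n` large `l((n + g) v₀) = n + 1` (Riemann), take a basis and apply the F1 core
(`DetHeightCore.detHeight_le_of_chow_vdm`) through `residualBound_of_core`.

`residualBound_plH` : the same for the heights of record `Glob.plH ev φ m₀`, `Glob.plD ev φ`,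
with `hD1` VERBATIM the conclusion of `Glob.chow`.
-/

set_option autoImplicit false

namespace Fermat.Agent.S17.H.F

open AlgebraicCurve Module
open Fermat.Agent.S17.R Fermat.Agent.S17.H.Glob

local notation "Qb" => AlgebraicClosure ℚ

variable {F : Type*} [Field F] [Algebra Qb F] [Algebra.EssFiniteType Qb F]

open Classical in
/-- **F1** for an abstract point height `H` and a symmetric pair term `D`. -/
theorem residualBound_of_chow_vdm (htr : Algebra.trdeg Qb F = 1) (v₀ : Place Qb F)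
    {ev : Place Qb F → F → Qb} (hev : IsEval ev) (H : Place Qb F → ℝ)
    (D : Place Qb F → Place Qb F → ℝ) (hD : ∀ P Q, D P Q = D Q P)
    (hchow : ∀ (M n : ℕ) (ψ : Fin n → F), LinearIndependent Qb ψ →
      (∀ i, ψ i ∈ riemannRochSpace ((M : ℤ) • Finsupp.single v₀ (1 : ℤ))) →
      ∃ C : ℝ, ∀ c : Fin n → Qb, c ≠ 0 →
        |(∑ᶠ v ∈ {v : Place Qb F | v ≠ v₀}, ((v.ord (∑ i, c i • ψ i) : ℤ) : ℝ) * H v)
          - hT c| ≤ C)
    (hvdm : ∀ (M n : ℕ) (ψ : Fin (n + 1) → F), LinearIndependent Qb ψ →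
      (∀ i, ψ i ∈ riemannRochSpace ((M : ℤ) • Finsupp.single v₀ (1 : ℤ))) →
      ∃ C : ℝ, ∀ a : Fin n → Place Qb F, Function.Injective a → (∀ j, a j ≠ v₀) →
        minorVec ev ψ a ≠ 0 →
        hT (minorVec ev ψ a) ≤
          (M : ℝ) * ∑ j, H (a j) - ∑ i, ∑ j ∈ Finset.Ioi i, D (a i) (a j) + C) :
    ResidualBound v₀ H D := by
  obtain ⟨n₁, hn₁⟩ := finrank_L_nsmul_single (K := Qb) (F := F) htr v₀
  refine residualBound_of_core htr v₀ H D ⟨n₁, fun n hn => ?_⟩
  have hfin : Module.Finite Qb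
      ↥(riemannRochSpace (((n + gR Qb F : ℕ) : ℤ) • Finsupp.single v₀ (1 : ℤ))) :=
    finite_L htr _
  have hrank : finrank Qb
      ↥(riemannRochSpace (((n + gR Qb F : ℕ) : ℤ) • Finsupp.single v₀ (1 : ℤ))) = n + 1 := by
    have h := hn₁ (n + gR Qb F) (by omega)
    have h2 : ((n + gR Qb F : ℕ) : ℤ) + 1 - (gR Qb F : ℤ) = ((n + 1 : ℕ) : ℤ) := by
      push_cast
      ring
    rw [h2] at h
    exact_mod_cast h
  let b : Basis (Fin (n + 1)) Qb
      ↥(riemannRochSpace (((n + gR Qb F : ℕ) : ℤ) • Finsupp.single v₀ (1 : ℤ))) :=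
    Module.finBasisOfFinrankEq Qb _ hrank
  have hψ : LinearIndependent Qb (fun i => (b i : F)) :=
    b.linearIndependent.map' (Submodule.subtype _) (Submodule.ker_subtype _)
  have hψM : ∀ i, (b i : F) ∈
      riemannRochSpace (((n + gR Qb F : ℕ) : ℤ) • Finsupp.single v₀ (1 : ℤ)) :=
    fun i => (b i).2
  obtain ⟨C₁, hC₁⟩ := hchow (n + gR Qb F) (n + 1) (fun i => (b i : F)) hψ hψM
  obtain ⟨C₂, hC₂⟩ := hvdm (n + gR Qb F) n (fun i => (b i : F)) hψ hψM
  refine ⟨C₁ + C₂ + gR Qb F * |H v₀|, fun A E' hA hv₀ hE hl hpr => ?_⟩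
  exact detHeight_le_of_chow_vdm htr v₀ hev H D hD rfl b hC₁ hC₂ A E' hA hv₀ hE hl hpr

/-- **F1** for the heights of record: `hD1` is verbatim the conclusion of `Glob.chow`. -/
theorem residualBound_plH (htr : Algebra.trdeg Qb F = 1) (v₀ : Place Qb F)
    {ev : Place Qb F → F → Qb} (hev : IsEval ev) {r : ℕ} (φ : Fin r → F) (m₀ : ℕ)
    (hD1 : ∀ (M n : ℕ) (ψ : Fin n → F), LinearIndependent Qb ψ →
      (∀ i, ψ i ∈ riemannRochSpace ((M : ℤ) • Finsupp.single v₀ (1 : ℤ))) →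
      ∃ C : ℝ, ∀ c : Fin n → Qb, c ≠ 0 →
        |(∑ᶠ v ∈ {v : Place Qb F | v ≠ v₀},
            ((v.ord (∑ i, c i • ψ i) : ℤ) : ℝ) * hT (fun i => ev v (φ i))) / (m₀ : ℝ)
          - hT c| ≤ C)
    (hD3 : ∀ (M n : ℕ) (ψ : Fin (n + 1) → F), LinearIndependent Qb ψ →
      (∀ i, ψ i ∈ riemannRochSpace ((M : ℤ) • Finsupp.single v₀ (1 : ℤ))) →
      ∃ C : ℝ, ∀ a : Fin n → Place Qb F, Function.Injective a → (∀ j, a j ≠ v₀) →
        minorVec ev ψ a ≠ 0 →
        hT (minorVec ev ψ a) ≤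
          (M : ℝ) * ∑ j, plH ev φ m₀ (a j)
            - ∑ i, ∑ j ∈ Finset.Ioi i, plD ev φ (a i) (a j) + C) :
    ResidualBound v₀ (plH ev φ m₀) (plD ev φ) := by
  refine residualBound_of_chow_vdm htr v₀ hev _ _ (plD_symm ev φ) (fun M n ψ hψ hψM => ?_) hD3
  obtain ⟨C, hC⟩ := hD1 M n ψ hψ hψM
  refine ⟨C, fun c hc => ?_⟩
  have h := hC c hc
  rw [Pairing.finsum_mem_mul_div] at h
  exact h

end Fermat.Agent.S17.H.F
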