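import Mathlib
import Fermat.Agent.S17.H.ExitOfBlocks
import Fermat.Agent.S17.H.F.FineBound

/-!
# Program MW (S17), strand H: the exit with block F4 discharged

`heightDescent_of_fineIface` = `heightDescent_of_blocks` (the exit of strand H from the exits
of the blocks) with its hypothesis `hF4` proved by `fine_bound_weak` (leaf F4).  What remains,
for ANY place height `H` and pair term `D` on the places of `Fb N`:

* `hD12` (blocks D1 + D2), `hH0`, `hNor` (block F5d) as in `heightDescent_of_blocks`;
* a function `t` regular off the cusp `∞` with a pole of order `≥ 2` there;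
* the outputs of F1, F3, F2 in the interface shapes of `FineIface.lean`:
  `ResidualBound (infPlace N) H D`, `FibreBound t H D`, `FibrePairBound t H D`.
-/

set_option autoImplicit false

namespace Fermat.Agent.S17.H.F

open AlgebraicCurve ModularCurve Fermat.Agent.S17 Fermat.Agent.S17.R

local notation "Qb" => AlgebraicClosure ℚ
local notation "Fb" => modularFunctionFieldBar

/-- **Exit of strand H with F4 discharged.** -/
theorem heightDescent_of_fineIface (N : ℕ) [NeZero N]
    (H : Place Qb (Fb N) → ℝ) (D : Place Qb (Fb N) → Place Qb (Fb N) → ℝ)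
    (hD : ∀ a b, D a b = D b a) (hD12 : Pairing.ChowLD (infPlace N) H D)
    (hH0 : ∀ P, 0 ≤ H P)
    (hNor : ∀ (B : ℝ) (d : ℕ), {P : Place Qb (Fb N) | H P ≤ B ∧
      ∃ s : Finset (Place Qb (Fb N)), s.card ≤ d ∧
        ∀ σ : Qb ≃ₐ[ℚ] Qb, arithmeticGalois (modularFunctionFieldFull N) σ • P ∈ s}.Finite)
    {t : Fb N} (hreg : ∀ v : Place Qb (Fb N), v ≠ infPlace N → 0 ≤ v.ord t)
    (hpole : (infPlace N).ord t ≤ -2)
    (hF1 : ResidualBound (infPlace N) H D) (hF3 : FibreBound t H D)
    (hF2 : FibrePairBound t H D) :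
    HeightDescent N :=
  heightDescent_of_blocks N H D hD hD12 hH0 hNor fun _ hMOV hPR =>
    fine_bound_weak (Fermat.Agent.S30.HeckeInputs.trdeg_bar N) (infPlace N) hreg hpole H hH0 D hD
      hPR hMOV hF1 hF3 hF2

end Fermat.Agent.S17.H.F
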